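/-
TG-ES (E6): the lattice `L = parabolicHoms ℤ Γ ℤ` of a finite index subgroup `Γ ≤ SL(2, ℤ)`, its
base change to domains of characteristic zero, and (given the surjectivity of the Eichler–Shimura
pairing) the isomorphism `Φ : S₂(Γ) × S₂(Γ) ≃ ℂ ⊗ L` together with the criterion for a Hecke
operator to preserve the lattice.
-/
import Mathlib
import Fermat.Agent.Lib.ES.GroupBoundMain
import Fermat.Agent.Lib.T1.Mono.Lattice
import Fermat.Agent.Lib.T1G.ES.Hecke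

set_option autoImplicit false

namespace Fermat.Agent.T1G

open Matrix MatrixGroups CongruenceSubgroup ModularCurve ModularCurve.Period
open Fermat.Agent.T1 Fermat.Agent.ES
open scoped TensorProduct

noncomputable section

variable (Γ : Subgroup SL(2, ℤ))

/-! ### The lattice -/

/-- the lattice of integral parabolic homomorphisms -/
abbrev tgeL : Submodule ℤ (Additive Γ →+ ℤ) := parabolicHoms ℤ Γ ℤ

section Fin

variable [Γ.FiniteIndex]

instance tge_fg : Group.FG ↥Γ := inferInstance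

instance tge_finite_L : Module.Finite ℤ ↥(tgeL Γ) := by
  haveI := tdm_isNoetherian_homG (G := Γ) ℤ
  infer_instance

instance tge_free_L : Module.Free ℤ ↥(tgeL Γ) := by
  haveI := tdm_isTorsionFree_homG (G := Γ) ℤ
  haveI : Module.IsTorsionFree ℤ ↥(tgeL Γ) := inferInstance
  exact Module.free_of_finite_type_torsion_free'

instance tge_finiteDimensional_addHom : FiniteDimensional ℂ (Additive Γ →+ ℂ) :=
  FiniteDimensional.of_injective (mapPhi Γ) mapPhi_injective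

end Fin

/-! ### Base change of the lattice -/

variable (R : Type*) [CommRing R]

/-- `φ ↦ cast ∘ φ` -/
def tgeCastHom : (Additive Γ →+ ℤ) →ₗ[ℤ] (Additive Γ →+ R) where
  toFun φ := (Int.castAddHom R).comp φ
  map_add' φ ψ := by ext; simp
  map_smul' c φ := by ext; simp

@[simp] theorem tgeCastHom_apply (φ : Additive Γ →+ ℤ) (γ : Additive Γ) :
    tgeCastHom Γ R φ γ = ((φ γ : ℤ) : R) := rfl

theorem tgeCastHom_mem {φ : Additive Γ →+ ℤ} (hφ : φ ∈ tgeL Γ) :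
    tgeCastHom Γ R φ ∈ parabolicHoms R Γ R := by
  intro γ hγ
  show ((φ (Additive.ofMul γ) : ℤ) : R) = 0
  rw [hφ γ hγ, Int.cast_zero]

/-- `L → parabolicHoms R Γ R` -/
def tgeCastL : ↥(tgeL Γ) →ₗ[ℤ] ↥(parabolicHoms R Γ R) where
  toFun φ := ⟨tgeCastHom Γ R φ, tgeCastHom_mem Γ R φ.2⟩
  map_add' φ ψ := by apply Subtype.ext; simp
  map_smul' c φ := by apply Subtype.ext; simp

@[simp] theorem tgeCastL_coe (φ : ↥(tgeL Γ)) :
    ((tgeCastL Γ R φ : ↥(parabolicHoms R Γ R)) : Additive Γ →+ R) = tgeCastHom Γ R φ := rfl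

/-- the base change map `R ⊗ L → parabolicHoms R Γ R`, `a ⊗ φ ↦ a • (cast ∘ φ)` -/
def tgeBCmap : R ⊗[ℤ] ↥(tgeL Γ) →ₗ[R] ↥(parabolicHoms R Γ R) :=
  LinearMap.liftBaseChange R (tgeCastL Γ R)

@[simp] theorem tgeBCmap_tmul (a : R) (φ : ↥(tgeL Γ)) :
    tgeBCmap Γ R (a ⊗ₜ[ℤ] φ) = a • tgeCastL Γ R φ := by
  rw [tgeBCmap, LinearMap.liftBaseChange_tmul]

theorem tgeBCmap_tmul_apply (a : R) (φ : ↥(tgeL Γ)) (γ : Additive Γ) :
    ((tgeBCmap Γ R (a ⊗ₜ[ℤ] φ) : ↥(parabolicHoms R Γ R)) : Additive Γ →+ R) γ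
      = a * ((φ.1 γ : ℤ) : R) := by
  rw [tgeBCmap_tmul]; rfl

section Inj

variable [Γ.FiniteIndex] [IsDomain R] [CharZero R]

theorem tgeBCmap_injective : Function.Injective (tgeBCmap Γ R) := by
  classical
  obtain ⟨S, hS⟩ := Group.fg_def.1 (inferInstance : Group.FG Γ)
  let e : ↥(tgeL Γ) →ₗ[ℤ] (S → ℤ) := (tdmEvalG ℤ S).comp (tgeL Γ).subtype
  have he : Function.Injective e :=
    (tdmEvalG_injective ℤ hS).comp (Submodule.subtype_injective _)
  have h1 : Function.Injective (LinearMap.lTensor R e) :=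
    Module.Flat.lTensor_preserves_injective_linearMap e he
  have key : ∀ x : R ⊗[ℤ] ↥(tgeL Γ),
      tdmEvalG R S ((tgeBCmap Γ R x : ↥(parabolicHoms R Γ R)) : Additive Γ →+ R)
        = TensorProduct.piScalarRight ℤ R R S (LinearMap.lTensor R e x) := by
    intro x
    induction x using TensorProduct.induction_on with
    | zero => simp
    | tmul a φ =>
      rw [LinearMap.lTensor_tmul, TensorProduct.piScalarRight_apply]
      funext s
      show ((tgeBCmap Γ R (a ⊗ₜ[ℤ] φ) : ↥(parabolicHoms R Γ R)) :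
        Additive Γ →+ R) (Additive.ofMul s.1) = _
      rw [tgeBCmap_tmul_apply]
      simp [e, tdmEvalG, mul_comm]
    | add x y hx hy =>
      rw [map_add, Submodule.coe_add, map_add, hx, hy, map_add, map_add]
  intro x y hxy
  apply h1
  apply (TensorProduct.piScalarRight ℤ R R S).injective
  rw [← key, ← key, hxy]

omit [Γ.FiniteIndex] in
theorem tgeBCmap_surjective [Group.FG ↥Γ] : Function.Surjective (tgeBCmap Γ R) := by
  classical
  rintro ⟨ψ, hψ⟩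
  let M : AddSubgroup R := ψ.range
  let ψ' : Additive Γ →+ M := ψ.rangeRestrict
  haveI : Module.Finite ℤ M := inferInstance
  haveI : Module.Free ℤ M := inferInstance
  let b := Module.finBasis ℤ M
  let c : Fin (Module.finrank ℤ M) → (Additive Γ →+ ℤ) := fun j =>
    ((b.coord j : M →ₗ[ℤ] ℤ).toAddMonoidHom).comp ψ'
  have hc : ∀ j, c j ∈ tgeL Γ := by
    intro j γ hγ
    have h0 : ψ' (Additive.ofMul γ) = 0 := Subtype.ext (hψ γ hγ)
    show b.coord j (ψ' (Additive.ofMul γ)) = 0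
    rw [h0, map_zero]
  refine ⟨∑ j, ((b j : M) : R) ⊗ₜ[ℤ] (⟨c j, hc j⟩ : ↥(tgeL Γ)), ?_⟩
  apply Subtype.ext
  refine AddMonoidHom.ext fun γ => ?_
  rw [map_sum, Submodule.coe_sum, AddMonoidHom.finsetSum_apply]
  simp only [tgeBCmap_tmul_apply]
  have h1 := b.sum_repr (ψ' γ)
  have h2 : ψ γ = ((ψ' γ : M) : R) := rfl
  show _ = ψ γ
  rw [h2, ← h1, AddSubgroup.val_finsetSum]
  refine Finset.sum_congr rfl fun j _ => ?_
  rw [AddSubgroup.coe_zsmul, zsmul_eq_mul, mul_comm]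
  rfl

end Inj

/-! ### Compatibilities of the base change map -/

/-- a pair of endomorphisms of `L` and of `parabolicHoms R Γ R` which are compatible with `ℤ → R`
is compatible with the base change map -/
theorem tgeBCmap_baseChange (s : ↥(tgeL Γ) →ₗ[ℤ] ↥(tgeL Γ))
    (sR : ↥(parabolicHoms R Γ R) →ₗ[R] ↥(parabolicHoms R Γ R))
    (h : ∀ φ : ↥(tgeL Γ), sR (tgeCastL Γ R φ) = tgeCastL Γ R (s φ)) (x : R ⊗[ℤ] ↥(tgeL Γ)) :
    tgeBCmap Γ R (s.baseChange R x) = sR (tgeBCmap Γ R x) := by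
  induction x using TensorProduct.induction_on with
  | zero => simp
  | tmul a φ =>
    rw [LinearMap.baseChange_tmul, tgeBCmap_tmul, tgeBCmap_tmul, map_smul, h]
  | add x y hx hy => rw [map_add, map_add, hx, hy, map_add, map_add]

theorem tgeBCmap_homPar {ι : Type} [Fintype ι] (S : tdmCosetSys Γ ι) (x : R ⊗[ℤ] ↥(tgeL Γ)) :
    tgeBCmap Γ R ((S.homPar ℤ ℤ).baseChange R x) = S.homPar R R (tgeBCmap Γ R x) := by
  refine tgeBCmap_baseChange Γ R _ _ (fun φ => ?_) x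
  apply Subtype.ext
  rw [tdmCosetSys.homPar_coe, tgeCastL_coe, tgeCastL_coe, tdmCosetSys.homPar_coe]
  exact S.hom_comp (Int.castAddHom R) φ.1

theorem tgeBCmap_tgeW [TgeJStable Γ] (x : R ⊗[ℤ] ↥(tgeL Γ)) :
    tgeBCmap Γ R ((tgeW Γ ℤ ℤ).baseChange R x) = tgeW Γ R R (tgeBCmap Γ R x) := by
  refine tgeBCmap_baseChange Γ R _ _ (fun φ => ?_) x
  apply Subtype.ext
  rfl

/-! ### The base change isomorphism -/

/-- `R ⊗ L ≃ parabolicHoms R Γ R` for a domain `R` of characteristic zero -/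
def tgeBC [Γ.FiniteIndex] (R : Type*) [CommRing R] [IsDomain R] [CharZero R] :
    R ⊗[ℤ] ↥(tgeL Γ) ≃ₗ[R] ↥(parabolicHoms R Γ R) :=
  LinearEquiv.ofBijective (tgeBCmap Γ R) ⟨tgeBCmap_injective Γ R, tgeBCmap_surjective Γ R⟩

section BC

variable [Γ.FiniteIndex] (R : Type*) [CommRing R] [IsDomain R] [CharZero R]

@[simp] theorem tgeBC_apply (x : R ⊗[ℤ] ↥(tgeL Γ)) : tgeBC Γ R x = tgeBCmap Γ R x := rfl

theorem tgeBC_tmul (a : R) (φ : ↥(tgeL Γ)) : tgeBC Γ R (a ⊗ₜ[ℤ] φ) = a • tgeCastL Γ R φ :=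
  tgeBCmap_tmul Γ R a φ

theorem tgeBC_tmul_apply (a : R) (φ : ↥(tgeL Γ)) (γ : Additive Γ) :
    ((tgeBC Γ R (a ⊗ₜ[ℤ] φ) : ↥(parabolicHoms R Γ R)) : Additive Γ →+ R) γ
      = a * ((φ.1 γ : ℤ) : R) :=
  tgeBCmap_tmul_apply Γ R a φ γ

theorem tgeBC_homPar {ι : Type} [Fintype ι] (S : tdmCosetSys Γ ι) (x : R ⊗[ℤ] ↥(tgeL Γ)) :
    tgeBC Γ R ((S.homPar ℤ ℤ).baseChange R x) = S.homPar R R (tgeBC Γ R x) :=
  tgeBCmap_homPar Γ R S x

theorem tgeBC_tgeW [TgeJStable Γ] (x : R ⊗[ℤ] ↥(tgeL Γ)) :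
    tgeBC Γ R ((tgeW Γ ℤ ℤ).baseChange R x) = tgeW Γ R R (tgeBC Γ R x) :=
  tgeBCmap_tgeW Γ R x

end BC

/-! ### Eichler–Shimura: `S₂ × S₂ ≃ ℂ ⊗ L`, given the dimension count -/

section ES

variable [Γ.FiniteIndex] [TgeJStable Γ]

instance tge_finiteDimensional_cuspForm : FiniteDimensional ℂ (CuspForm Γ 2) := by
  have h1 : FiniteDimensional ℂ (CuspForm Γ 2 × CuspForm Γ 2) :=
    FiniteDimensional.of_injective (tgePair Γ) (tgePair_injective Γ)
  exact FiniteDimensional.of_injective (LinearMap.inl ℂ _ (CuspForm Γ 2)) LinearMap.inl_injective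

/-- `2 dim S₂(Γ) ≤ dim Hom_par(Γ, ℂ)` -/
theorem tge_two_mul_finrank_le :
    2 * Module.finrank ℂ (CuspForm Γ 2) ≤ Module.finrank ℂ ↥(parabolicHoms ℂ Γ ℂ) := by
  have h1 : Module.finrank ℂ (CuspForm Γ 2 × CuspForm Γ 2) =
      2 * Module.finrank ℂ (CuspForm Γ 2) := by
    rw [Module.finrank_prod]; ring
  rw [← h1]
  exact LinearMap.finrank_le_finrank_of_injective (tgePair_injective Γ)

/-- the pairing is surjective as soon as `dim Hom_par(Γ, ℂ) ≤ 2 dim S₂(Γ)` -/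
theorem tgePair_surjective_of_finrank_le
    (h : Module.finrank ℂ ↥(parabolicHoms ℂ Γ ℂ) ≤ 2 * Module.finrank ℂ (CuspForm Γ 2)) :
    Function.Surjective (tgePair Γ) := by
  rw [← LinearMap.range_eq_top]
  apply Submodule.eq_top_of_finrank_eq
  rw [LinearMap.finrank_range_of_inj (tgePair_injective Γ), Module.finrank_prod]
  have := tge_two_mul_finrank_le Γ
  omega

variable (hsurj : Function.Surjective (tgePair Γ))

/-- the period isomorphism `S₂ × S₂ ≃ parabolicHoms ℂ Γ ℂ` -/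
def tgePeriodEquiv : (CuspForm Γ 2 × CuspForm Γ 2) ≃ₗ[ℂ] ↥(parabolicHoms ℂ Γ ℂ) :=
  LinearEquiv.ofBijective (tgePair Γ) ⟨tgePair_injective Γ, hsurj⟩

@[simp] theorem tgePeriodEquiv_apply (x : CuspForm Γ 2 × CuspForm Γ 2) :
    tgePeriodEquiv Γ hsurj x = tgePair Γ x := rfl

/-- `Φ : S₂ × S₂ ≃ ℂ ⊗ L` -/
def tgePhi : (CuspForm Γ 2 × CuspForm Γ 2) ≃ₗ[ℂ] ℂ ⊗[ℤ] ↥(tgeL Γ) :=
  (tgePeriodEquiv Γ hsurj).trans (tgeBC Γ ℂ).symm

theorem tgeBC_tgePhi (x : CuspForm Γ 2 × CuspForm Γ 2) :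
    tgeBC Γ ℂ (tgePhi Γ hsurj x) = tgePair Γ x := by
  rw [tgePhi, LinearEquiv.trans_apply, LinearEquiv.apply_symm_apply]; rfl

theorem tgeBC_tgePhi_coe (x : CuspForm Γ 2 × CuspForm Γ 2) :
    ((tgeBC Γ ℂ (tgePhi Γ hsurj x) : ↥(parabolicHoms ℂ Γ ℂ)) : Additive Γ →+ ℂ)
      = tgePairHom Γ x := by
  rw [tgeBC_tgePhi]; rfl

/-- a Hecke operator `(T, s)` (on cusp forms, resp. on `Hom(Γ, ℂ)`) which is compatible with the
period map and commutes with the involution is compatible with the pairing -/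
theorem tgePairHom_of_comm (T : CuspForm Γ 2 → CuspForm Γ 2)
    (s : (Additive Γ →+ ℂ) →+ (Additive Γ →+ ℂ))
    (h1 : ∀ f, tgePeriodHom Γ (T f) = s (tgePeriodHom Γ f))
    (h2 : ∀ φ, tgeInv Γ ℂ ℂ (s φ) = s (tgeInv Γ ℂ ℂ φ))
    (f g : CuspForm Γ 2) :
    s (tgePairHom Γ (f, g)) = tgePairHom Γ (T f, T g) := by
  rw [tgePairHom_apply, tgePairHom_apply, map_add, map_add, map_sub, h1, h1, ← h2, ← h2]

/-- **lattice criterion**: an operator `T` on `S₂(Γ)` whose effect on periods is the abstract Hecke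
operator of a coset system `S` commuting with `J` preserves the lattice, acting through
`S.homPar ℤ ℤ` -/
theorem tgeLat_of_comm {ι : Type} [Fintype ι] (S : tdmCosetSys Γ ι)
    (T : Module.End ℂ (CuspForm Γ 2))
    (h1 : ∀ f, tgePeriodHom Γ (T f) = S.hom ℂ (tgePeriodHom Γ f))
    (h2 : ∀ φ, tgeInv Γ ℂ ℂ (S.hom ℂ φ) = S.hom ℂ (tgeInv Γ ℂ ℂ φ)) :
    TdmLat (tgePhi Γ hsurj) T (S.homPar ℤ ℤ) := by
  intro f g
  apply (tgeBC Γ ℂ).injective
  rw [tgeBC_homPar]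
  apply Subtype.ext
  rw [tdmCosetSys.homPar_coe, tgeBC_tgePhi_coe, tgeBC_tgePhi_coe]
  exact tgePairHom_of_comm Γ T (S.hom ℂ) h1 h2 f g

/-- the involution on the lattice corresponds to `(f, g) ↦ (f, -g)` under `Φ` -/
theorem tgeW_spec (f g : CuspForm Γ 2) :
    (tgeW Γ ℤ ℤ).baseChange ℂ (tgePhi Γ hsurj (f, g)) = tgePhi Γ hsurj (f, -g) := by
  apply (tgeBC Γ ℂ).injective
  rw [tgeBC_tgeW, tgeBC_tgePhi, tgeBC_tgePhi, tgeW_tgePair]

include hsurj in
/-- the rank of the lattice -/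
theorem tge_finrank_L : Module.finrank ℤ ↥(tgeL Γ) = 2 * Module.finrank ℂ (CuspForm Γ 2) := by
  have h1 : Module.finrank ℂ (ℂ ⊗[ℤ] ↥(tgeL Γ)) = Module.finrank ℤ ↥(tgeL Γ) :=
    Module.finrank_baseChange
  rw [← h1, ← (tgePhi Γ hsurj).finrank_eq, Module.finrank_prod]
  ring

end ES

end

end Fermat.Agent.T1G
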