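/-
TG-ES (E3): the group theoretic bound for a finite index subgroup `Γ ≤ SL(2, ℤ)` with `-1 ∉ Γ`
such that `±Γ` has no elements of trace `0, ±1` (e.g. `Γ₁(M)`, `M ≥ 4`):
`6 dim Hom_par(Γ, ℂ) + 6 c ≤ n + 12`, `n = [SL(2, ℤ) : ±Γ]`, `c` = number of `T`-orbits on
`SL(2, ℤ) ⧸ ±Γ`.
-/
import Mathlib
import Fermat.Agent.Lib.ES.GroupBoundMain
import Fermat.Agent.Lib.S24.OrbitsST
import Fermat.Agent.Lib.T1G.ES.Lattice

set_option autoImplicit false

namespace Fermat.Agent.T1G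

open Matrix MatrixGroups CongruenceSubgroup ModularCurve ModularCurve.Period ModularGroup
open Fermat.Agent.T1 Fermat.Agent.ES Fermat.Agent.S24Lib

noncomputable section

/-! ### The subgroup `±Γ` -/

/-- the subgroup `±Γ` -/
def tgePM (Γ : Subgroup SL(2, ℤ)) : Subgroup SL(2, ℤ) where
  carrier := {g | g ∈ Γ ∨ -g ∈ Γ}
  one_mem' := Or.inl Γ.one_mem
  mul_mem' := by
    rintro a b (ha | ha) (hb | hb)
    · exact Or.inl (Γ.mul_mem ha hb)
    · exact Or.inr (by rw [← mul_neg]; exact Γ.mul_mem ha hb)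
    · exact Or.inr (by rw [← neg_mul]; exact Γ.mul_mem ha hb)
    · exact Or.inl (by rw [← neg_mul_neg]; exact Γ.mul_mem ha hb)
  inv_mem' := by
    rintro a (ha | ha)
    · exact Or.inl (Γ.inv_mem ha)
    · exact Or.inr (by
        have := Γ.inv_mem ha
        rwa [inv_neg] at this)

variable (Γ : Subgroup SL(2, ℤ))

theorem mem_tgePM {g : SL(2, ℤ)} : g ∈ tgePM Γ ↔ g ∈ Γ ∨ -g ∈ Γ := Iff.rfl

theorem tge_le_tgePM : Γ ≤ tgePM Γ := fun _ hg => Or.inl hg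

theorem tge_neg_one_mem_tgePM : (-1 : SL(2, ℤ)) ∈ tgePM Γ :=
  Or.inr (by rw [neg_neg]; exact Γ.one_mem)

instance tge_finiteIndex_tgePM [Γ.FiniteIndex] : (tgePM Γ).FiniteIndex :=
  Subgroup.finiteIndex_of_le (tge_le_tgePM Γ)

/-! ### The projection `±Γ → Γ` -/

section Proj

variable (hneg : (-1 : SL(2, ℤ)) ∉ Γ)

include hneg in
theorem tge_not_both {g : SL(2, ℤ)} (h1 : g ∈ Γ) (h2 : -g ∈ Γ) : False := by
  apply hneg
  have := Γ.mul_mem h2 (Γ.inv_mem h1)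
  rwa [neg_mul, mul_inv_cancel] at this

open Classical in
/-- the element of `{g, -g}` which lies in `Γ` -/
def tgeProjFun (g : tgePM Γ) : Γ :=
  if h : (g : SL(2, ℤ)) ∈ Γ then ⟨g, h⟩ else ⟨-g, g.2.resolve_left h⟩

theorem tgeProjFun_of_mem {g : tgePM Γ} (h : (g : SL(2, ℤ)) ∈ Γ) :
    ((tgeProjFun Γ g : Γ) : SL(2, ℤ)) = g := by
  rw [tgeProjFun, dif_pos h]

theorem tgeProjFun_of_not_mem {g : tgePM Γ} (h : (g : SL(2, ℤ)) ∉ Γ) :
    ((tgeProjFun Γ g : Γ) : SL(2, ℤ)) = -g := by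
  rw [tgeProjFun, dif_neg h]

theorem tgeProjFun_eq_or (g : tgePM Γ) :
    ((tgeProjFun Γ g : Γ) : SL(2, ℤ)) = g ∨ ((tgeProjFun Γ g : Γ) : SL(2, ℤ)) = -g := by
  by_cases h : (g : SL(2, ℤ)) ∈ Γ
  · exact Or.inl (tgeProjFun_of_mem Γ h)
  · exact Or.inr (tgeProjFun_of_not_mem Γ h)

include hneg in
/-- characterisation of the projection -/
theorem tgeProjFun_eq {g : tgePM Γ} {γ : Γ}
    (h : (γ : SL(2, ℤ)) = g ∨ (γ : SL(2, ℤ)) = -g) : tgeProjFun Γ g = γ := by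
  apply Subtype.ext
  rcases h with h | h
  · rw [tgeProjFun_of_mem Γ (h ▸ γ.2), h]
  · have hn : (g : SL(2, ℤ)) ∉ Γ := fun hg =>
      tge_not_both Γ hneg hg (h ▸ γ.2)
    rw [tgeProjFun_of_not_mem Γ hn, h]

/-- the projection `±Γ → Γ` (for `-1 ∉ Γ`) -/
def tgeProj : tgePM Γ →* Γ where
  toFun := tgeProjFun Γ
  map_one' := tgeProjFun_eq Γ hneg (Or.inl rfl)
  map_mul' a b := by
    refine tgeProjFun_eq Γ hneg ?_
    rw [Subgroup.coe_mul, Subgroup.coe_mul]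
    rcases tgeProjFun_eq_or Γ a with ha | ha <;> rcases tgeProjFun_eq_or Γ b with hb | hb <;>
      rw [ha, hb]
    · exact Or.inl rfl
    · exact Or.inr (by rw [mul_neg])
    · exact Or.inr (by rw [neg_mul])
    · exact Or.inl (by rw [neg_mul_neg])

theorem tgeProj_coe_eq_or (g : tgePM Γ) :
    ((tgeProj Γ hneg g : Γ) : SL(2, ℤ)) = g ∨ ((tgeProj Γ hneg g : Γ) : SL(2, ℤ)) = -g :=
  tgeProjFun_eq_or Γ g

theorem tgeProj_of_mem (γ : Γ) : tgeProj Γ hneg ⟨γ, tge_le_tgePM Γ γ.2⟩ = γ :=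
  tgeProjFun_eq Γ hneg (Or.inl rfl)

theorem tge_trace_neg (g : SL(2, ℤ)) :
    ((-g : SL(2, ℤ)) : Matrix (Fin 2) (Fin 2) ℤ).trace
      = -(g : Matrix (Fin 2) (Fin 2) ℤ).trace := by
  rw [Matrix.SpecialLinearGroup.coe_neg, Matrix.trace_neg]

/-- extension of homomorphisms from `Γ` to `±Γ` -/
def tgeExt : (Additive Γ →+ ℂ) →ₗ[ℂ] (Additive (tgePM Γ) →+ ℂ) where
  toFun φ := φ.comp (MonoidHom.toAdditive (tgeProj Γ hneg))
  map_add' _ _ := rfl
  map_smul' _ _ := rfl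

theorem tgeExt_apply (φ : Additive Γ →+ ℂ) (g : tgePM Γ) :
    tgeExt Γ hneg φ (Additive.ofMul g) = φ (Additive.ofMul (tgeProj Γ hneg g)) := rfl

theorem tgeExt_injective : Function.Injective (tgeExt Γ hneg) := by
  intro φ ψ h
  refine AddMonoidHom.ext fun γ' => ?_
  obtain ⟨γ, rfl⟩ := Additive.ofMul.surjective γ'
  have := DFunLike.congr_fun h (Additive.ofMul (⟨γ, tge_le_tgePM Γ γ.2⟩ : tgePM Γ))
  rwa [tgeExt_apply, tgeExt_apply, tgeProj_of_mem] at this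

theorem tgeExt_mem_parabolicHoms {φ : Additive Γ →+ ℂ} (hφ : φ ∈ parabolicHoms ℂ Γ ℂ) :
    tgeExt Γ hneg φ ∈ parabolicHoms ℂ (tgePM Γ) ℂ := by
  intro g hg
  rw [tgeExt_apply]
  refine hφ _ ?_
  rcases tgeProj_coe_eq_or Γ hneg g with h | h
  · rw [h]; exact hg
  · rw [h, tge_trace_neg, neg_sq]; exact hg

include hneg in
/-- `dim Hom_par(Γ, ℂ) ≤ dim Hom_par(±Γ, ℂ)` -/
theorem tge_finrank_parabolicHoms_le [Γ.FiniteIndex] :
    Module.finrank ℂ ↥(parabolicHoms ℂ Γ ℂ) ≤ Module.finrank ℂ ↥(parabolicHoms ℂ (tgePM Γ) ℂ) := by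
  let e : ↥(parabolicHoms ℂ Γ ℂ) →ₗ[ℂ] ↥(parabolicHoms ℂ (tgePM Γ) ℂ) :=
    ((tgeExt Γ hneg).comp (parabolicHoms ℂ Γ ℂ).subtype).codRestrict _
      fun φ => tgeExt_mem_parabolicHoms Γ hneg φ.2
  have he : Function.Injective e := by
    intro φ ψ h
    apply Subtype.ext
    exact tgeExt_injective Γ hneg (congrArg Subtype.val h)
  exact LinearMap.finrank_le_finrank_of_injective he

end Proj

/-! ### Orbit counts of elements acting freely modulo `±1` -/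

section Free

variable (Γ' : Subgroup SL(2, ℤ)) [Γ'.FiniteIndex]

local notation "𝕏" => SL(2, ℤ) ⧸ Γ'

omit [Γ'.FiniteIndex] in
/-- an element whose conjugates avoid `Γ'` has no fixed points on `SL(2, ℤ) ⧸ Γ'` -/
theorem tge_fixedBy_eq_empty {g : SL(2, ℤ)} (hg : ∀ x : SL(2, ℤ), x⁻¹ * g * x ∉ Γ') :
    MulAction.fixedBy 𝕏 g = ∅ := by
  rw [Set.eq_empty_iff_forall_notMem]
  intro x hx
  induction x using QuotientGroup.induction_on with
  | H x =>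
    rw [MulAction.mem_fixedBy, MulAction.Quotient.smul_coe, smul_eq_mul, QuotientGroup.eq] at hx
    apply hg x
    have := Γ'.inv_mem hx
    rwa [_root_.mul_inv_rev, inv_inv, ← mul_assoc] at this

omit [Γ'.FiniteIndex] in
theorem tge_card_fixedBy_eq_zero {g : SL(2, ℤ)} (hg : ∀ x : SL(2, ℤ), x⁻¹ * g * x ∉ Γ') :
    Nat.card (MulAction.fixedBy 𝕏 g) = 0 := by
  rw [tge_fixedBy_eq_empty Γ' hg]
  exact Nat.card_eq_zero.mpr (Or.inl inferInstance)

omit [Γ'.FiniteIndex] in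
theorem tge_card_fixedBy_of_trivial {g : SL(2, ℤ)} (hg : ∀ x : 𝕏, g • x = x) :
    Nat.card (MulAction.fixedBy 𝕏 g) = Nat.card 𝕏 := by
  have : MulAction.fixedBy 𝕏 g = Set.univ := Set.eq_univ_of_forall fun x => hg x
  rw [this]
  exact Nat.card_congr (Equiv.Set.univ _)

variable (hneg : (-1 : SL(2, ℤ)) ∈ Γ')

omit [Γ'.FiniteIndex] in
include hneg in
theorem tge_fixedBy_neg (g : SL(2, ℤ)) :
    MulAction.fixedBy 𝕏 (-g) = MulAction.fixedBy 𝕏 g := by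
  ext x
  rw [MulAction.mem_fixedBy, MulAction.mem_fixedBy, ← neg_one_mul, mul_smul,
    neg_one_smul_coset hneg]

omit [Γ'.FiniteIndex] in
/-- conjugates of `g` avoid `Γ'` when no element of `Γ'` has the trace of `g` -/
theorem tge_conj_not_mem {g : SL(2, ℤ)}
    (h : ∀ γ ∈ Γ', (γ : Matrix (Fin 2) (Fin 2) ℤ).trace ≠ (g : Matrix (Fin 2) (Fin 2) ℤ).trace)
    (x : SL(2, ℤ)) : x⁻¹ * g * x ∉ Γ' := fun hx => h _ hx (trace_conj x g)

include hneg in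
/-- `S` acts freely: `2 · #(S-orbits) = index` -/
theorem tge_two_mul_orbCount_S
    (h0 : ∀ γ ∈ Γ', (γ : Matrix (Fin 2) (Fin 2) ℤ).trace ≠ 0) :
    2 * orbCount 𝕏 S = Γ'.index := by
  have hfin : IsOfFinOrder S := orderOf_pos_iff.mp (by rw [orderOf_S]; norm_num)
  have key := cyclic_burnside (X := 𝕏) S hfin
  rw [orderOf_S] at key
  simp only [Finset.sum_range_succ, Finset.sum_range_zero, zero_add] at key
  have hS : ∀ x : SL(2, ℤ), x⁻¹ * S * x ∉ Γ' := tge_conj_not_mem Γ' (fun γ hγ => by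
    have : (S : Matrix (Fin 2) (Fin 2) ℤ).trace = 0 := by decide
    rw [this]; exact h0 γ hγ)
  rw [pow_zero, pow_one, S_pow_two, S_pow_three, MulAction.fixedBy_inv,
    tge_card_fixedBy_eq_zero Γ' hS,
    tge_card_fixedBy_of_trivial Γ' (g := (-1 : SL(2, ℤ))) (neg_one_smul_coset hneg),
    tge_card_fixedBy_of_trivial Γ' (g := (1 : SL(2, ℤ))) (fun x => one_smul _ x)] at key
  have hidx : Γ'.index = Nat.card 𝕏 := rfl
  have key' : Nat.card 𝕏 + 0 + Nat.card 𝕏 + 0 = orbCount 𝕏 S * 4 := key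
  rw [hidx]
  omega

include hneg in
/-- `S * T` acts freely modulo `±1`: `3 · #(ST-orbits) = index` -/
theorem tge_three_mul_orbCount_U
    (h1 : ∀ γ ∈ Γ', (γ : Matrix (Fin 2) (Fin 2) ℤ).trace ≠ 1) :
    3 * orbCount 𝕏 elU = Γ'.index := by
  have hfin : IsOfFinOrder (S * T) := orderOf_pos_iff.mp (by rw [orderOf_ST]; norm_num)
  have key := cyclic_burnside (X := 𝕏) (S * T) hfin
  rw [orderOf_ST] at key
  simp only [Finset.sum_range_succ, Finset.sum_range_zero, zero_add] at key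
  have hU : ∀ x : SL(2, ℤ), x⁻¹ * (S * T) * x ∉ Γ' := tge_conj_not_mem Γ' (fun γ hγ => by
    have : ((S * T : SL(2, ℤ)) : Matrix (Fin 2) (Fin 2) ℤ).trace = 1 := by decide
    rw [this]; exact h1 γ hγ)
  rw [pow_zero, pow_one, ST_pow_two, ST_pow_three, ST_pow_four, ST_pow_five] at key
  simp only [tge_fixedBy_neg Γ' hneg, MulAction.fixedBy_inv, tge_card_fixedBy_eq_zero Γ' hU,
    tge_card_fixedBy_of_trivial Γ' (g := (1 : SL(2, ℤ))) (fun x => one_smul _ x)] at key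
  have hidx : Γ'.index = Nat.card 𝕏 := rfl
  have key' : Nat.card 𝕏 + 0 + 0 + Nat.card 𝕏 + 0 + 0 = orbCount 𝕏 elU * 6 := key
  rw [hidx]
  omega

include hneg in
/-- the group theoretic bound for a subgroup `Γ' ∋ -1` without elements of trace `0`, `1` -/
theorem tge_groupBound_of_free
    (h0 : ∀ γ ∈ Γ', (γ : Matrix (Fin 2) (Fin 2) ℤ).trace ≠ 0)
    (h1 : ∀ γ ∈ Γ', (γ : Matrix (Fin 2) (Fin 2) ℤ).trace ≠ 1) :
    6 * Module.finrank ℂ ↥(parabolicHoms ℂ Γ' ℂ) + 6 * orbCount 𝕏 T ≤ Γ'.index + 12 := by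
  have h := finrank_parabolicHoms_add_le (Γ := Γ') hneg
  have hS := tge_two_mul_orbCount_S Γ' hneg h0
  have hU := tge_three_mul_orbCount_U Γ' hneg h1
  omega

end Free

/-! ### The case of `Γ₁(M)` -/

section Gamma1

variable (M : ℕ)

theorem tge_trace_Gamma1 {γ : SL(2, ℤ)} (hγ : γ ∈ Gamma1 M) :
    (((γ : Matrix (Fin 2) (Fin 2) ℤ).trace : ℤ) : ZMod M) = 2 := by
  obtain ⟨h1, h2, -⟩ := (Gamma1_mem M γ).mp hγ
  rw [Matrix.trace_fin_two]
  push_cast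
  rw [h1, h2]
  norm_num

theorem tge_trace_tgePM_Gamma1 {γ : SL(2, ℤ)} (hγ : γ ∈ tgePM (Gamma1 M)) :
    (((γ : Matrix (Fin 2) (Fin 2) ℤ).trace : ℤ) : ZMod M) = 2 ∨
      (((γ : Matrix (Fin 2) (Fin 2) ℤ).trace : ℤ) : ZMod M) = -2 := by
  rcases hγ with h | h
  · exact Or.inl (tge_trace_Gamma1 M h)
  · refine Or.inr ?_
    have := tge_trace_Gamma1 M h
    rw [tge_trace_neg] at this
    push_cast at this
    rw [← this, neg_neg]

theorem tge_zmod_ne {a : ℤ} (ha : 0 < a) (haM : a < M) : ((a : ℤ) : ZMod M) ≠ 0 := by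
  intro h
  rw [ZMod.intCast_zmod_eq_zero_iff_dvd] at h
  have := Int.le_of_dvd ha h
  omega

theorem tge_neg_one_not_mem_Gamma1 (hM : 3 ≤ M) : (-1 : SL(2, ℤ)) ∉ Gamma1 M := by
  intro h
  obtain ⟨h1, -, -⟩ := (Gamma1_mem M (-1 : SL(2, ℤ))).mp h
  have h2 : ((-1 : SL(2, ℤ)) : Matrix (Fin 2) (Fin 2) ℤ) 0 0 = -1 := by decide
  rw [h2] at h1
  have h3 : ((2 : ℤ) : ZMod M) = 0 := by
    push_cast at h1 ⊢
    linear_combination -h1
  exact tge_zmod_ne M (by norm_num) (by omega) h3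

theorem tge_trace_ne_zero (hM : 3 ≤ M) {γ : SL(2, ℤ)} (hγ : γ ∈ tgePM (Gamma1 M)) :
    (γ : Matrix (Fin 2) (Fin 2) ℤ).trace ≠ 0 := by
  intro h
  have h2 : ((2 : ℤ) : ZMod M) = 0 := by
    rcases tge_trace_tgePM_Gamma1 M hγ with h' | h' <;> rw [h] at h' <;> push_cast at h' ⊢
    · exact h'.symm
    · linear_combination h'
  exact tge_zmod_ne M (by norm_num) (by omega) h2

theorem tge_trace_ne_one (hM : 4 ≤ M) {γ : SL(2, ℤ)} (hγ : γ ∈ tgePM (Gamma1 M)) :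
    (γ : Matrix (Fin 2) (Fin 2) ℤ).trace ≠ 1 := by
  intro h
  rcases tge_trace_tgePM_Gamma1 M hγ with h' | h' <;> rw [h] at h'
  · have h2 : ((1 : ℤ) : ZMod M) = 0 := by
      push_cast at h' ⊢
      linear_combination -h'
    exact tge_zmod_ne M (by norm_num) (by omega) h2
  · have h2 : ((3 : ℤ) : ZMod M) = 0 := by
      push_cast at h' ⊢
      linear_combination h'
    exact tge_zmod_ne M (by norm_num) (by omega) h2

variable [NeZero M]

/-- **(E3)** the group theoretic bound for `Γ₁(M)`, `M ≥ 4`: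
`6 dim Hom_par(Γ₁(M), ℂ) + 6 c ≤ n + 12` with `n = [SL(2, ℤ) : ±Γ₁(M)]` and `c` the number of
`T`-orbits on `SL(2, ℤ) ⧸ ±Γ₁(M)` -/
theorem tge_groupBound_Gamma1 (hM : 4 ≤ M) :
    6 * Module.finrank ℂ ↥(parabolicHoms ℂ (Gamma1 M) ℂ)
        + 6 * orbCount (SL(2, ℤ) ⧸ tgePM (Gamma1 M)) T
      ≤ (tgePM (Gamma1 M)).index + 12 := by
  have h1 := tge_finrank_parabolicHoms_le (Gamma1 M) (tge_neg_one_not_mem_Gamma1 M (by omega))
  have h2 := tge_groupBound_of_free (tgePM (Gamma1 M)) (tge_neg_one_mem_tgePM _)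
    (fun γ hγ => tge_trace_ne_zero M (by omega) hγ) (fun γ hγ => tge_trace_ne_one M hM hγ)
  omega

end Gamma1

end

end Fermat.Agent.T1G
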