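/-
TG-ES: bridge between `tgePM Γ` (ES/GroupBound.lean) and `tgPm Γ` (Model/GaloisGen.lean), both `±Γ`,
and the group theoretic bound (E3) for `Γ₁(M)` in terms of `tgPm`.
-/
import Mathlib
import Fermat.Agent.Lib.T1G.Model.GaloisGen
import Fermat.Agent.Lib.T1G.ES.GroupBound

set_option autoImplicit false

namespace Fermat.Agent.T1G

open Matrix MatrixGroups CongruenceSubgroup ModularCurve ModularCurve.Period ModularGroup
open Fermat.Agent.ES

theorem tgePM_eq_tgPm (Γ : Subgroup SL(2, ℤ)) : tgePM Γ = tgPm Γ := rfl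

/-- **(E3)** in terms of `tgPm`: `6 dim Hom_par(Γ₁(M), ℂ) + 6 c ≤ n + 12`, `n = [SL(2, ℤ) : ±Γ₁(M)]`,
`c` = number of `⟨T⟩`-orbits on `SL(2, ℤ) ⧸ ±Γ₁(M)` -/
theorem tge_groupBound_Gamma1_tgPm (M : ℕ) [NeZero M] (hM : 4 ≤ M) :
    6 * Module.finrank ℂ ↥(parabolicHoms ℂ (Gamma1 M) ℂ)
        + 6 * Nat.card (MulAction.orbitRel.Quotient (Subgroup.zpowers T)
            (SL(2, ℤ) ⧸ tgPm (Gamma1 M)))
      ≤ (tgPm (Gamma1 M)).index + 12 :=
  tge_groupBound_Gamma1 M hM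

/-- the pairing is surjective as soon as `n + 12 ≤ 12 dim S₂(Γ₁(M)) + 6 c` -/
theorem tgePair_surjective_Gamma1 (M : ℕ) [NeZero M] (hM : 4 ≤ M)
    (h : (tgPm (Gamma1 M)).index + 12 ≤ 12 * Module.finrank ℂ (CuspForm (Gamma1 M) 2)
      + 6 * Nat.card (MulAction.orbitRel.Quotient (Subgroup.zpowers T)
            (SL(2, ℤ) ⧸ tgPm (Gamma1 M)))) :
    Function.Surjective (tgePair (Gamma1 M)) := by
  refine tgePair_surjective_of_finrank_le (Gamma1 M) ?_
  have := tge_groupBound_Gamma1_tgPm M hM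
  omega

end Fermat.Agent.T1G
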