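/-
T1G TG-ES (E4) (helper7), part 1: port of `Lib/ES/DictPull.lean` to the generic analytic model
`TgxField G`: valuations of a function field `F` embedded in `TgxField G` obtained by pulling back
valuations of `tgxRing G`, and the consequences of regularity of a differential `h dj` at the
points of `ℍ` (holomorphy of `a · j' / b`) and at the cusps (order of the `q`-expansions).
-/
import Mathlib
import Fermat.Agent.Lib.T1G.GMod.Infty
import Fermat.Agent.Lib.T1G.GMod.Points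
import Fermat.Agent.Lib.Curve.DictAlg
import Fermat.Agent.Lib.ES.DictJPrime

set_option autoImplicit false
set_option linter.unusedSectionVars false
set_option linter.style.haveILetI false
set_option linter.unusedVariables false

namespace Fermat.Agent.T1G

open UpperHalfPlane Matrix MatrixGroups CongruenceSubgroup ModularCurve WithZero
open Fermat.Agent.S24Lib Fermat.Agent.Curve AlgebraicCurve Fermat.Agent.T1
open Fermat.Agent.ES (jPrime mdiff_jPrime ordAt_jPrime_add_one)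
attribute [local instance] KMod.charZero_k

variable {𝕜 : Type} [Field 𝕜] [IsAlgClosed 𝕜] [Algebra 𝕜 ℂ] {N : ℕ} [NeZero N]
  (G : TgxGens 𝕜 N)

section Generic

variable {F : Type*} [Field F] [Algebra 𝕜 F] (ψ : F →ₐ[𝕜] TgxField G)

/-- every element of the function field is a fraction of elements of `tgxRing G` -/
theorem tgy_exists_toMod_mul_eq (h : F) :
    ∃ a b : tgxRing G, b ≠ 0 ∧
      ψ h * algebraMap (tgxRing G) (TgxField G) b = algebraMap (tgxRing G) (TgxField G) a := by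
  obtain ⟨a, b, hb, hab⟩ := IsFractionRing.div_surjective (A := tgxRing G) (ψ h)
  have hb0 : b ≠ 0 := nonZeroDivisors.ne_zero hb
  refine ⟨a, b, hb0, ?_⟩
  have hb1 : algebraMap (tgxRing G) (TgxField G) b ≠ 0 :=
    (map_ne_zero_iff _ (IsFractionRing.injective (tgxRing G) (TgxField G))).mpr hb0
  rw [← hab, div_mul_cancel₀ _ hb1]

/-! ### Pulling back valuations -/

variable (w₀ : Valuation (tgxRing G) ℤᵐ⁰) (hw : ∀ r, w₀ r = 0 → r = 0)

/-- the valuation of the function field induced by a valuation of `tgxRing G` -/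
noncomputable def tgyPullVal : Valuation F ℤᵐ⁰ :=
  (fracValuation (L := TgxField G) w₀ hw).comap (ψ : F →+* TgxField G)

theorem tgyPullVal_apply (h : F) :
    tgyPullVal G ψ w₀ hw h = fracValuation (L := TgxField G) w₀ hw (ψ h) := rfl

theorem tgyPullVal_algebraMap_le_one (hK : ∀ c : 𝕜, w₀ (algebraMap 𝕜 (tgxRing G) c) ≤ 1)
    (c : 𝕜) : tgyPullVal G ψ w₀ hw (algebraMap 𝕜 F c) ≤ 1 := by
  rw [tgyPullVal_apply, AlgHom.commutes]
  exact fracValuation_algebraMap_le_one w₀ hw hK c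

theorem tgyPullVal_mul_eq {h : F} {a b : tgxRing G}
    (hab : ψ h * algebraMap (tgxRing G) (TgxField G) b
      = algebraMap (tgxRing G) (TgxField G) a) :
    tgyPullVal G ψ w₀ hw h * w₀ b = w₀ a := by
  rw [tgyPullVal_apply, ← fracValuation_algebraMap (L := TgxField G) w₀ hw b, ← map_mul, hab,
    fracValuation_algebraMap]

variable {x : F} (hψx : ψ x = tgxJL G)

include hψx in
theorem tgyPullVal_gen : tgyPullVal G ψ w₀ hw x = w₀ (tgxJR G) := by
  rw [tgyPullVal_apply, hψx, tgxJL, fracValuation_algebraMap]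

include hψx in
theorem tgyPullVal_gen_sub (c : 𝕜) :
    tgyPullVal G ψ w₀ hw (x - algebraMap 𝕜 F c)
      = w₀ (tgxJR G - algebraMap 𝕜 (tgxRing G) c) := by
  rw [tgyPullVal_apply, map_sub, hψx, AlgHom.commutes, tgxJL,
    IsScalarTower.algebraMap_apply 𝕜 (tgxRing G) (TgxField G), ← RingHom.map_sub,
    fracValuation_algebraMap]

include hψx in
theorem tgyPullVal_aeval (P : Polynomial 𝕜) :
    tgyPullVal G ψ w₀ hw (Polynomial.aeval x P) = w₀ (Polynomial.aeval (tgxJR G) P) := by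
  rw [tgyPullVal_apply]
  have h1 : ψ (Polynomial.aeval x P)
      = algebraMap (tgxRing G) (TgxField G) (Polynomial.aeval (tgxJR G) P) := by
    rw [← Polynomial.aeval_algHom_apply, hψx, tgxJL]
    exact (Polynomial.aeval_algHom_apply (IsScalarTower.toAlgHom 𝕜 (tgxRing G) (TgxField G))
      (tgxJR G) P)
  rw [h1, fracValuation_algebraMap]

end Generic

/-! ### The valuation at a point of the upper half plane -/

theorem tgyPointVal_le_one (τ₀ : ℍ) (r : tgxRing G) : tgxPointValuation G τ₀ r ≤ 1 := by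
  by_cases hr : r = 0
  · rw [hr, map_zero]; exact zero_le_one
  · rw [tgxPointValuation_apply G τ₀ hr, ← exp_zero, exp_le_exp]
    omega

theorem tgy_ordAt_ne_top_of_ne_zero {f : tgxRing G} (hf : f ≠ 0) (τ : ℍ) :
    ordAt (f : ℍ → ℂ) τ ≠ ⊤ := by
  intro h
  apply hf
  apply Subtype.ext
  exact (ordAt_eq_top_iff (tgx_mdiff_of_mem_ring G f.2) τ).mp h

theorem tgyPointVal_eq_one_iff (τ₀ : ℍ) {f : tgxRing G} (hf : f ≠ 0) :
    tgxPointValuation G τ₀ f = 1 ↔ (f : ℍ → ℂ) τ₀ ≠ 0 := by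
  rw [tgxPointValuation_apply G τ₀ hf, ← exp_zero, exp_inj,
    ← ordAt_eq_zero_iff (tgx_mdiff_of_mem_ring G f.2) τ₀]
  have hfin := tgy_ordAt_ne_top_of_ne_zero G hf τ₀
  obtain ⟨n, hn⟩ := ENat.ne_top_iff_exists.mp hfin
  rw [← hn]
  simp

theorem tgyPointVal_lt_one_iff (τ₀ : ℍ) {f : tgxRing G} (hf : f ≠ 0) :
    tgxPointValuation G τ₀ f < 1 ↔ (f : ℍ → ℂ) τ₀ = 0 := by
  rw [lt_iff_le_and_ne, and_iff_right (tgyPointVal_le_one G τ₀ f), Ne,
    tgyPointVal_eq_one_iff G τ₀ hf, not_not]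

theorem tgy_coe_jR_sub (c : 𝕜) (τ : ℍ) :
    ((tgxJR G - algebraMap 𝕜 (tgxRing G) c : tgxRing G) : ℍ → ℂ) τ
      = jFun τ - (algebraMap 𝕜 ℂ) c := rfl

theorem tgy_jR_sub_ne_zero (c : 𝕜) : tgxJR G - algebraMap 𝕜 (tgxRing G) c ≠ 0 :=
  tgxJSubR_ne_zero G c

/-- if `(P.map (algebraMap 𝕜 ℂ)).eval z = 0` with `P ≠ 0` then `z` is in the image of `𝕜` -/
theorem tgy_exists_eq_of_eval_eq_zero {P : Polynomial 𝕜} (hP : P ≠ 0) {z : ℂ}
    (hz : (P.map (algebraMap 𝕜 ℂ)).eval z = 0) : ∃ c : 𝕜, (algebraMap 𝕜 ℂ) c = z := by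
  have hsplit := (IsAlgClosed.splits P).eq_prod_roots
  rw [hsplit, Polynomial.map_mul, Polynomial.map_C, Polynomial.map_multiset_prod,
    Polynomial.eval_mul, Polynomial.eval_C, Polynomial.eval_multiset_prod] at hz
  rcases mul_eq_zero.mp hz with h | h
  · exfalso
    have : P.leadingCoeff = 0 := (algebraMap 𝕜 ℂ).injective (h.trans (map_zero _).symm)
    exact hP (Polynomial.leadingCoeff_eq_zero.mp this)
  · rw [Multiset.prod_eq_zero_iff] at h
    simp only [Multiset.map_map, Multiset.mem_map, Function.comp_apply] at h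
    obtain ⟨a, -, ha⟩ := h
    rw [Polynomial.map_sub, Polynomial.map_X, Polynomial.map_C, Polynomial.eval_sub,
      Polynomial.eval_X, Polynomial.eval_C, sub_eq_zero] at ha
    exact ⟨a, ha.symm⟩

/-! ### Regular differentials give holomorphic quotients -/

section Regular

variable {F : Type*} [Field F] [Algebra 𝕜 F] (ψ : F →ₐ[𝕜] TgxField G)
variable {x : F} (hψx : ψ x = tgxJL G) (hx : IsFunctionFieldGen 𝕜 F x)

include hx hψx in
/-- **Holomorphy.** If `h dj` is a regular differential and `h = a / b` with `a, b ∈ tgxRing G`,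
then `a · jPrime / b` has no poles in the upper half plane. -/
theorem tgy_ordAt_le_of_regular {h : F}
    (hreg : h • KaehlerDifferential.D 𝕜 F x ∈ regularDifferentials hx)
    {a b : tgxRing G} (hb : b ≠ 0)
    (hab : ψ h * algebraMap (tgxRing G) (TgxField G) b
      = algebraMap (tgxRing G) (TgxField G) a) (τ₀ : ℍ) :
    ordAt (b : ℍ → ℂ) τ₀ ≤ ordAt (fun τ => (a : ℍ → ℂ) τ * jPrime τ) τ₀ := by
  have hamd := tgx_mdiff_of_mem_ring G a.2
  have hbmd := tgx_mdiff_of_mem_ring G b.2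
  by_cases ha : a = 0
  · have : (fun τ => (a : ℍ → ℂ) τ * jPrime τ) = 0 := by
      funext τ
      rw [ha]
      show (0 : ℂ) * _ = 0
      rw [zero_mul]
    rw [this, (ordAt_eq_top_iff (f := (0 : ℍ → ℂ)) mdifferentiable_const τ₀).mpr rfl]
    exact le_top
  have hmul : ordAt (fun τ => (a : ℍ → ℂ) τ * jPrime τ) τ₀
      = ordAt (a : ℍ → ℂ) τ₀ + ordAt jPrime τ₀ := ordAt_mul hamd mdiff_jPrime τ₀
  rw [hmul]
  have hAfin := tgy_ordAt_ne_top_of_ne_zero G ha τ₀
  have hBfin := tgy_ordAt_ne_top_of_ne_zero G hb τ₀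
  obtain ⟨A, hA⟩ := ENat.ne_top_iff_exists.mp hAfin
  obtain ⟨B, hB⟩ := ENat.ne_top_iff_exists.mp hBfin
  set w₀ := tgxPointValuation G τ₀ with hw₀
  have hw := tgxPointValuation_eq_zero G τ₀
  have hK : ∀ c : 𝕜, w₀ (algebraMap 𝕜 (tgxRing G) c) ≤ 1 :=
    fun c => tgyPointVal_le_one G τ₀ _
  have hwa : w₀ a = exp (-(A : ℤ)) := by
    rw [hw₀, tgxPointValuation_apply G τ₀ ha, ← hA, ENat.toNat_natCast]
  have hwb : w₀ b = exp (-(B : ℤ)) := by
    rw [hw₀, tgxPointValuation_apply G τ₀ hb, ← hB, ENat.toNat_natCast]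
  have hpull := tgyPullVal_mul_eq G ψ w₀ hw hab
  have hh0 : h ≠ 0 := by
    rintro rfl
    rw [map_zero, zero_mul] at hab
    exact ha ((IsFractionRing.injective (tgxRing G) (TgxField G))
      (hab.symm.trans (map_zero _).symm))
  by_cases halg : ∃ c : 𝕜, (algebraMap 𝕜 ℂ) c = jFun τ₀
  · -- algebraic value of `j`
    obtain ⟨c, hc⟩ := halg
    set r := tgxJR G - algebraMap 𝕜 (tgxRing G) c with hr
    have hr0 : r ≠ 0 := tgy_jR_sub_ne_zero G c
    have hrτ : (r : ℍ → ℂ) τ₀ = 0 := by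
      rw [hr, tgy_coe_jR_sub, hc, sub_self]
    have hrlt : w₀ r < 1 := (tgyPointVal_lt_one_iff G τ₀ hr0).mpr hrτ
    have hlt := valuation_mul_sub_lt_one_of_regular hx (tgyPullVal G ψ w₀ hw)
      (tgyPullVal_algebraMap_le_one G ψ w₀ hw hK) hreg c
      (by rw [tgyPullVal_gen_sub G ψ w₀ hw hψx]; exact hrlt)
    rw [map_mul, tgyPullVal_gen_sub G ψ w₀ hw hψx] at hlt
    -- `w₀ a * w₀ r < w₀ b`
    have hbpos : 0 < w₀ b := by rw [hwb]; exact exp_pos
    have h1 : w₀ a * w₀ r < w₀ b := by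
      calc w₀ a * w₀ r = (tgyPullVal G ψ w₀ hw h * w₀ r) * w₀ b := by
            rw [← hpull, mul_right_comm]
        _ < 1 * w₀ b := mul_lt_mul_of_pos_right hlt hbpos
        _ = w₀ b := one_mul _
    -- the order of `r` at `τ₀`
    have hrfun : (r : ℍ → ℂ) = fun τ => jFun τ - jFun τ₀ := by
      funext τ
      rw [hr, tgy_coe_jR_sub, hc]
    have hJ := ordAt_jPrime_add_one τ₀
    rw [← hrfun] at hJ
    have hRfin := tgy_ordAt_ne_top_of_ne_zero G hr0 τ₀
    obtain ⟨R, hR⟩ := ENat.ne_top_iff_exists.mp hRfin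
    have hwr : w₀ r = exp (-(R : ℤ)) := by
      rw [hw₀, tgxPointValuation_apply G τ₀ hr0, ← hR, ENat.toNat_natCast]
    rw [hwa, hwr, hwb, ← exp_add, exp_lt_exp] at h1
    rw [← hR] at hJ
    have hJfin : ordAt jPrime τ₀ ≠ ⊤ := by
      intro htop
      rw [htop] at hJ
      simp at hJ
    obtain ⟨J, hJ'⟩ := ENat.ne_top_iff_exists.mp hJfin
    rw [← hJ'] at hJ ⊢
    rw [← hA, ← hB]
    have hJR : J + 1 = R := by exact_mod_cast hJ
    have : B ≤ A + J := by omega
    exact_mod_cast this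
  · -- transcendental value of `j`: the valuation is trivial
    have htriv : ∀ P : Polynomial 𝕜, P ≠ 0 →
        tgyPullVal G ψ w₀ hw (Polynomial.aeval x P) = 1 := by
      intro P hP
      rw [tgyPullVal_aeval G ψ w₀ hw hψx]
      have hne : Polynomial.aeval (tgxJR G) P ≠ 0 := by
        intro h0
        apply halg
        apply tgy_exists_eq_of_eval_eq_zero hP
        rw [← tgx_aeval_jR_apply G, h0]
        rfl
      rw [hw₀, tgyPointVal_eq_one_iff G τ₀ hne, tgx_aeval_jR_apply]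
      intro h0
      exact halg (tgy_exists_eq_of_eval_eq_zero hP h0)
    have h1 := valuation_eq_one_of_forall_aeval hx (tgyPullVal G ψ w₀ hw)
      (tgyPullVal_algebraMap_le_one G ψ w₀ hw hK) htriv h hh0
    rw [h1, one_mul, hwa, hwb, exp_inj] at hpull
    rw [← hA, ← hB]
    have : B = A := by omega
    rw [this]
    exact le_self_add

end Regular

/-! ### The valuation at a cusp -/

/-- the order of the `q_N`-expansion of `f ∘ γ` as a valuation of `tgxRing G` -/
noncomputable def tgyCuspVal (γ : SL(2, ℤ)) : Valuation (tgxRing G) ℤᵐ⁰ :=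
  (tgxInftyValuation G).comap
    ((tgxAct G γ⁻¹ : tgxRing G ≃ₐ[𝕜] tgxRing G) : tgxRing G →+* tgxRing G)

theorem tgyCuspVal_apply (γ : SL(2, ℤ)) (f : tgxRing G) :
    tgyCuspVal G γ f = tgxInftyValuation G (tgxAct G γ⁻¹ f) := rfl

theorem tgyCuspVal_eq_zero (γ : SL(2, ℤ)) (r : tgxRing G) (h : tgyCuspVal G γ r = 0) :
    r = 0 := by
  rw [tgyCuspVal_apply, tgxInftyValuation_eq_zero_iff] at h
  exact (EmbeddingLike.map_eq_zero_iff (f := tgxAct G γ⁻¹)).mp h

theorem tgyCuspVal_algebraMap_le_one (γ : SL(2, ℤ)) (c : 𝕜) :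
    tgyCuspVal G γ (algebraMap 𝕜 (tgxRing G) c) ≤ 1 := by
  rw [tgyCuspVal_apply, AlgEquiv.commutes]
  exact tgxInftyValuation_algebraMap_le_one G c

theorem tgyCuspVal_jR (γ : SL(2, ℤ)) : tgyCuspVal G γ (tgxJR G) = exp (N : ℤ) := by
  rw [tgyCuspVal_apply, tgxAct_jR, tgxInftyValuation_jR]

section RegularCusp

variable {F : Type*} [Field F] [Algebra 𝕜 F] (ψ : F →ₐ[𝕜] TgxField G)
variable {x : F} (hψx : ψ x = tgxJL G) (hx : IsFunctionFieldGen 𝕜 F x)

include hx hψx in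
/-- **Vanishing at the cusps.** If `h dj` is a regular differential and `h = a / b` with
`a, b ∈ tgxRing G`, then the `q_N`-expansion of `(a / b) ∘ γ` has order `> N`. -/
theorem tgy_order_lt_of_regular {h : F}
    (hreg : h • KaehlerDifferential.D 𝕜 F x ∈ regularDifferentials hx)
    {a b : tgxRing G} (ha : a ≠ 0) (hb : b ≠ 0)
    (hab : ψ h * algebraMap (tgxRing G) (TgxField G) b
      = algebraMap (tgxRing G) (TgxField G) a) (γ : SL(2, ℤ)) :
    (tgxRingQL G (tgxAct G γ⁻¹ b)).order + N < (tgxRingQL G (tgxAct G γ⁻¹ a)).order := by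
  set w₀ := tgyCuspVal G γ with hw₀
  have hw := tgyCuspVal_eq_zero G γ
  have hK := tgyCuspVal_algebraMap_le_one G γ
  have hpull := tgyPullVal_mul_eq G ψ w₀ hw hab
  have hN : (0 : ℤ) < N := by exact_mod_cast Nat.pos_of_ne_zero (NeZero.ne N)
  have hpole : 1 < tgyPullVal G ψ w₀ hw x := by
    rw [tgyPullVal_gen G ψ w₀ hw hψx, hw₀, tgyCuspVal_jR, ← exp_zero, exp_lt_exp]
    exact hN
  have hlt := valuation_mul_lt_one_of_regular_of_pole hx (tgyPullVal G ψ w₀ hw)
    (tgyPullVal_algebraMap_le_one G ψ w₀ hw hK) hreg hpole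
  have hjR : w₀ (tgxJR G) = exp (N : ℤ) := tgyCuspVal_jR G γ
  rw [map_mul, tgyPullVal_gen G ψ w₀ hw hψx, hjR] at hlt
  have ha' : tgxAct G γ⁻¹ a ≠ 0 := fun h0 =>
    ha ((EmbeddingLike.map_eq_zero_iff (f := tgxAct G γ⁻¹)).mp h0)
  have hb' : tgxAct G γ⁻¹ b ≠ 0 := fun h0 =>
    hb ((EmbeddingLike.map_eq_zero_iff (f := tgxAct G γ⁻¹)).mp h0)
  have hwa : w₀ a = exp (-(tgxRingQL G (tgxAct G γ⁻¹ a)).order) := by
    rw [hw₀, tgyCuspVal_apply, tgxInftyValuation_apply G ha']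
  have hwb : w₀ b = exp (-(tgxRingQL G (tgxAct G γ⁻¹ b)).order) := by
    rw [hw₀, tgyCuspVal_apply, tgxInftyValuation_apply G hb']
  have hbpos : 0 < w₀ b := by rw [hwb]; exact exp_pos
  have h1 : w₀ a * exp (N : ℤ) < w₀ b := by
    calc w₀ a * exp (N : ℤ) = (tgyPullVal G ψ w₀ hw h * exp (N : ℤ)) * w₀ b := by
          rw [← hpull, mul_right_comm]
      _ < 1 * w₀ b := mul_lt_mul_of_pos_right hlt hbpos
      _ = w₀ b := one_mul _
  rw [hwa, hwb, ← exp_add, exp_lt_exp] at h1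
  omega

end RegularCusp

end Fermat.Agent.T1G
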