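/-
T1G TG-ES (E4) (helper7), part 2: port of `Lib/ES/Dictionary.lean` to the generic analytic model:
a regular differential `h dj` of a function field `F ⊆ TgxField G` whose image is invariant under
a subgroup `Γ` gives a weight two cusp form `ψ(h) · jPrime` of level `Γ`, with the expected
`q_N`-expansion.
-/
import Mathlib
import Fermat.Agent.Lib.T1G.ES.DictPull
import Fermat.Agent.Lib.T1G.GMod.InftyOrd
import Fermat.Agent.Lib.ES.Dictionary

set_option autoImplicit false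
set_option linter.unusedSectionVars false
set_option linter.style.haveILetI false
set_option linter.unusedVariables false

namespace Fermat.Agent.T1G

open UpperHalfPlane Matrix MatrixGroups CongruenceSubgroup ModularCurve WithZero Filter Topology
open scoped ModularForm Manifold
open Fermat.Agent.S24Lib Fermat.Agent.Curve AlgebraicCurve Fermat.Agent.T1
open Fermat.Agent.ES
attribute [local instance] KMod.charZero_k

variable {𝕜 : Type} [Field 𝕜] [IsAlgClosed 𝕜] [Algebra 𝕜 ℂ] {N : ℕ} [NeZero N]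
  (G : TgxGens 𝕜 N)

theorem tgy_coe_act_inv (γ : SL(2, ℤ)) (a : tgxRing G) (τ : ℍ) :
    ((tgxAct G γ⁻¹ a : tgxRing G) : ℍ → ℂ) τ = (a : ℍ → ℂ) (γ • τ) := by
  rw [tgxAct_apply_apply, inv_inv]

theorem tgy_coe_ne_zero_of_ne_zero {a : tgxRing G} (ha : a ≠ 0) : (a : ℍ → ℂ) ≠ 0 := by
  intro h
  exact ha (Subtype.ext h)

theorem tgy_isQLaurentable_coe (a : tgxRing G) : IsQLaurentable N (a : ℍ → ℂ) :=
  (tgxRing_props G a.2).1

theorem tgy_periodic_coe (a : tgxRing G) (z : ℍ) :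
    (a : ℍ → ℂ) ((N : ℝ) +ᵥ z) = (a : ℍ → ℂ) z :=
  (tgy_isQLaurentable_coe G a).periodic z

/-- Laurent expansions of the slashes of a quotient `a · jPrime / b` -/
theorem tgy_slash_data {f : ℍ → ℂ} (hf : MDiff f) {a b : tgxRing G} (hb : b ≠ 0)
    (hmul : ∀ τ, f τ * (b : ℍ → ℂ) τ = (a : ℍ → ℂ) τ * jPrime τ) (γ : SL(2, ℤ)) :
    IsQLaurentable N (f ∣[(2 : ℤ)] γ) ∧
      qLaurent N (f ∣[(2 : ℤ)] γ) * tgxRingQL G (tgxAct G γ⁻¹ b)
        = tgxRingQL G (tgxAct G γ⁻¹ a) * qLaurent N jPrime := by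
  set g := f ∣[(2 : ℤ)] γ with hg
  set a' := tgxAct G γ⁻¹ a with ha'
  set b' := tgxAct G γ⁻¹ b with hb'
  have hrel : ∀ τ, g τ * (b' : ℍ → ℂ) τ = (a' : ℍ → ℂ) τ * jPrime τ := by
    intro τ
    rw [ha', hb', tgy_coe_act_inv, tgy_coe_act_inv]
    exact slash_mul_eq_of_mul_eq hmul γ τ
  have hgmd : MDiff g := mdiff_slash_two hf γ
  have hb'0 : b' ≠ 0 := fun h0 =>
    hb ((EmbeddingLike.map_eq_zero_iff (f := tgxAct G γ⁻¹)).mp h0)
  have hb'fn : (b' : ℍ → ℂ) ≠ 0 := tgy_coe_ne_zero_of_ne_zero G hb'0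
  have haJ : IsQLaurentable N (fun τ => (a' : ℍ → ℂ) τ * jPrime τ) :=
    (tgy_isQLaurentable_coe G a').mul (isQLaurentable_jPrime_level N)
  have hb'L := tgy_isQLaurentable_coe G b'
  have hper : ∀ z : ℍ, g ((N : ℝ) +ᵥ z) = g z :=
    periodic_of_mul_eq hgmd hb'L.mdiff hb'fn haJ.periodic hb'L.periodic hrel
  refine ⟨isQLaurentable_of_mul_eq hgmd hper haJ hb'L hb'fn hrel, ?_⟩
  have h1 := qLaurent_mul_eq_of_mul_eq hgmd hper haJ hb'L hb'fn hrel
  rw [tgxRingQL_apply, tgxRingQL_apply, h1]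
  exact qLaurent_mul (tgy_isQLaurentable_coe G a') (isQLaurentable_jPrime_level N)

/-- vanishing at the cusp `γ∞` from the order estimate -/
theorem tgy_isZeroAtImInfty_slash_of_order_lt {f : ℍ → ℂ} (hf : MDiff f) {a b : tgxRing G}
    (ha : a ≠ 0) (hb : b ≠ 0)
    (hmul : ∀ τ, f τ * (b : ℍ → ℂ) τ = (a : ℍ → ℂ) τ * jPrime τ) (γ : SL(2, ℤ))
    (hlt : (tgxRingQL G (tgxAct G γ⁻¹ b)).order + N < (tgxRingQL G (tgxAct G γ⁻¹ a)).order) :
    IsZeroAtImInfty (f ∣[(2 : ℤ)] γ) := by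
  obtain ⟨hgL, hq⟩ := tgy_slash_data G hf hb hmul γ
  have ha' : tgxRingQL G (tgxAct G γ⁻¹ a) ≠ 0 := by
    rw [Ne, tgxRingQL_eq_zero_iff]
    exact fun h0 => ha ((EmbeddingLike.map_eq_zero_iff (f := tgxAct G γ⁻¹)).mp h0)
  have hb' : tgxRingQL G (tgxAct G γ⁻¹ b) ≠ 0 := by
    rw [Ne, tgxRingQL_eq_zero_iff]
    exact fun h0 => hb ((EmbeddingLike.map_eq_zero_iff (f := tgxAct G γ⁻¹)).mp h0)
  have hJ := qLaurent_jPrime_level_ne_zero N
  have hG : qLaurent N (f ∣[(2 : ℤ)] γ) ≠ 0 := by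
    intro h0
    rw [h0, zero_mul] at hq
    exact mul_ne_zero ha' hJ hq.symm
  have hord := congrArg HahnSeries.order hq
  rw [HahnSeries.order_mul hG hb', HahnSeries.order_mul ha' hJ] at hord
  have hJord := neg_le_order_qLaurent_jPrime N
  apply isZeroAtImInfty_of_coeff_eq_zero hgL
  intro m hm
  apply HahnSeries.coeff_eq_zero_of_lt_order
  omega

/-! ### The construction -/

section Construction

variable {F : Type*} [Field F] [Algebra 𝕜 F] (ψ : F →ₐ[𝕜] TgxField G)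
variable {x : F} (hψx : ψ x = tgxJL G) (hx : IsFunctionFieldGen 𝕜 F x)

/-- invariance of `a / b` under `γ` in terms of numerator and denominator -/
theorem tgy_act_mul_eq_of_fixed {h : F} {a b : tgxRing G}
    (hab : ψ h * algebraMap (tgxRing G) (TgxField G) b
      = algebraMap (tgxRing G) (TgxField G) a)
    (γ : SL(2, ℤ)) (hfix : tgxRep G γ (ψ h) = ψ h) :
    tgxAct G γ a * b = a * tgxAct G γ b := by
  apply IsFractionRing.injective (tgxRing G) (TgxField G)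
  have h1 := congrArg (tgxRep G γ) hab
  rw [map_mul, hfix, tgxRep_algebraMap, tgxRep_algebraMap] at h1
  rw [map_mul, map_mul, ← h1, ← hab]
  ring

include hψx hx in
/-- **The dictionary, analytic form.** A regular differential `h dj` gives a holomorphic function
`f = ψ(h) · jPrime` which is a weight two cusp form for `Γ`, with `q_N`-expansion
`ψ(h) · jPrime`. -/
theorem tgy_exists_form_of_regular (Γ : Subgroup SL(2, ℤ)) {h : F}
    (hreg : h • KaehlerDifferential.D 𝕜 F x ∈ regularDifferentials hx)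
    (hfix : ∀ γ ∈ Γ, tgxRep G γ (ψ h) = ψ h) :
    ∃ f : ℍ → ℂ, MDiff f ∧ (∀ γ ∈ Γ, f ∣[(2 : ℤ)] γ = f) ∧
      (∀ γ : SL(2, ℤ), IsZeroAtImInfty (f ∣[(2 : ℤ)] γ)) ∧
      IsQLaurentable N f ∧ qLaurent N f = tgxFieldQL G (ψ h) * qLaurent N jPrime := by
  obtain ⟨a, b, hb, hab⟩ := tgy_exists_toMod_mul_eq G ψ h
  have hamd := tgx_mdiff_of_mem_ring G a.2
  have hbmd := tgx_mdiff_of_mem_ring G b.2
  have hBfin : ∀ τ : ℍ, ordAt (b : ℍ → ℂ) τ ≠ ⊤ := fun τ => tgy_ordAt_ne_top_of_ne_zero G hb τ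
  have hord := fun τ => tgy_ordAt_le_of_regular G ψ hψx hx hreg hb hab τ
  obtain ⟨f, hf, hmul⟩ := exists_mdiff_mul_eq (a := fun τ => (a : ℍ → ℂ) τ * jPrime τ)
    (b := (b : ℍ → ℂ)) (hamd.mul mdiff_jPrime) hbmd hBfin hord
  have hbfn : (b : ℍ → ℂ) ≠ 0 := tgy_coe_ne_zero_of_ne_zero G hb
  refine ⟨f, hf, ?_, ?_, ?_, ?_⟩
  · -- invariance under `Γ`
    intro γ hγ
    have hγ' : γ⁻¹ ∈ Γ := inv_mem hγ
    have hinv := tgy_act_mul_eq_of_fixed G ψ hab γ⁻¹ (hfix γ⁻¹ hγ')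
    have hinvfn : ∀ τ, (a : ℍ → ℂ) (γ • τ) * (b : ℍ → ℂ) τ
        = (a : ℍ → ℂ) τ * (b : ℍ → ℂ) (γ • τ) := by
      intro τ
      have := congrArg (fun r : tgxRing G => (r : ℍ → ℂ) τ) hinv
      simp only [MulMemClass.coe_mul, Pi.mul_apply] at this
      rw [tgy_coe_act_inv, tgy_coe_act_inv] at this
      exact this
    have hgmd : MDiff (f ∣[(2 : ℤ)] γ) := mdiff_slash_two hf γ
    have hb'md : MDiff (fun τ => (b : ℍ → ℂ) (γ • τ)) := by
      have := tgx_mdiff_of_mem_ring G (tgxAct G γ⁻¹ b).2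
      have h2 : ((tgxAct G γ⁻¹ b : tgxRing G) : ℍ → ℂ) = fun τ => (b : ℍ → ℂ) (γ • τ) := by
        funext τ
        exact tgy_coe_act_inv G γ b τ
      rwa [h2] at this
    have hb'0 : (fun τ => (b : ℍ → ℂ) (γ • τ)) ≠ 0 := by
      intro h0
      apply hbfn
      funext τ
      have := congrFun h0 (γ⁻¹ • τ)
      simpa using this
    have hzero : ((f ∣[(2 : ℤ)] γ) - f) * ((fun τ => (b : ℍ → ℂ) (γ • τ)) * (b : ℍ → ℂ)) = 0 := by
      funext τ
      simp only [Pi.mul_apply, Pi.sub_apply, Pi.zero_apply]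
      have h1 := slash_mul_eq_of_mul_eq hmul γ τ
      have h2 := hmul τ
      have h3 := hinvfn τ
      calc ((f ∣[(2 : ℤ)] γ) τ - f τ) * ((b : ℍ → ℂ) (γ • τ) * (b : ℍ → ℂ) τ)
          = ((f ∣[(2 : ℤ)] γ) τ * (b : ℍ → ℂ) (γ • τ)) * (b : ℍ → ℂ) τ
            - (f τ * (b : ℍ → ℂ) τ) * (b : ℍ → ℂ) (γ • τ) := by ring
        _ = ((a : ℍ → ℂ) (γ • τ) * (b : ℍ → ℂ) τ) * jPrime τ
            - ((a : ℍ → ℂ) τ * (b : ℍ → ℂ) (γ • τ)) * jPrime τ := by rw [h1, h2]; ring
        _ = 0 := by rw [h3, sub_self]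
    rcases (UpperHalfPlane.mul_eq_zero_iff (hgmd.sub hf) (hb'md.mul hbmd)).mp hzero with h0 | h0
    · exact sub_eq_zero.mp h0
    · rcases (UpperHalfPlane.mul_eq_zero_iff hb'md hbmd).mp h0 with h1 | h1
      · exact absurd h1 hb'0
      · exact absurd h1 hbfn
  · -- vanishing at all cusps
    intro γ
    by_cases ha : a = 0
    · have hf0 : f = 0 := by
        have hz : f * (b : ℍ → ℂ) = 0 := by
          funext τ
          simp only [Pi.mul_apply, Pi.zero_apply]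
          rw [hmul τ, ha]
          show (0 : ℂ) * _ = 0
          rw [zero_mul]
        rcases (UpperHalfPlane.mul_eq_zero_iff hf hbmd).mp hz with h0 | h0
        · exact h0
        · exact absurd h0 hbfn
      rw [hf0, SlashAction.zero_slash]
      exact Filter.zero_zeroAtFilter atImInfty
    · exact tgy_isZeroAtImInfty_slash_of_order_lt G hf ha hb hmul γ
        (tgy_order_lt_of_regular G ψ hψx hx hreg ha hb hab γ)
  · -- Laurent expansion exists
    have := (tgy_slash_data G hf hb hmul 1).1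
    rwa [SlashAction.slash_one] at this
  · -- the Laurent expansion
    have h1 := (tgy_slash_data G hf hb hmul 1).2
    rw [SlashAction.slash_one, inv_one, map_one] at h1
    have h2 : tgxFieldQL G (ψ h) * tgxRingQL G b = tgxRingQL G a := by
      have := congrArg (tgxFieldQL G) hab
      rwa [map_mul, tgxFieldQL_algebraMap, tgxFieldQL_algebraMap] at this
    have hbq : tgxRingQL G b ≠ 0 := by
      rw [Ne, tgxRingQL_eq_zero_iff]
      exact hb
    have h3 : qLaurent N f * tgxRingQL G b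
        = (tgxFieldQL G (ψ h) * qLaurent N jPrime) * tgxRingQL G b := by
      rw [show (1 : tgxRing G ≃ₐ[𝕜] tgxRing G) b = b from rfl,
        show (1 : tgxRing G ≃ₐ[𝕜] tgxRing G) a = a from rfl] at h1
      rw [h1, ← h2]
      ring
    exact mul_right_cancel₀ hbq h3

end Construction

end Fermat.Agent.T1G
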