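/-
T1G TG-ES (E4) (helper7), part 3: port of `Lib/ES/DictLower.lean` to the generic analytic model and
a general subgroup `Γ ∋ T`: `q`-expansions of cusp forms as Laurent series, linear independence of
the dictionary forms, and the lower bound `dim Ω(0) ≤ dim S₂(Γ)` for a function field
`F ⊆ TgxField G` whose image is `Γ`-invariant.
-/
import Mathlib
import Fermat.Agent.Lib.T1G.ES.Dictionary
import Fermat.Agent.Lib.ES.DictLower

set_option autoImplicit false
set_option linter.unusedSectionVars false
set_option linter.style.haveILetI false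
set_option linter.unusedVariables false

namespace Fermat.Agent.T1G

open UpperHalfPlane Matrix MatrixGroups CongruenceSubgroup ModularCurve WithZero Filter Topology
open scoped ModularForm Manifold
open Fermat.Agent.S24Lib Fermat.Agent.Curve AlgebraicCurve Fermat.Agent.T1
open Fermat.Agent.ES
attribute [local instance] KMod.charZero_k

/-! ### Laurent expansions of cusp forms -/

section CuspForms

variable (N : ℕ) [NeZero N] (Γ : Subgroup SL(2, ℤ)) [Γ.FiniteIndex] (hT : ModularGroup.T ∈ Γ)

include hT in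
theorem tgy_isNice_cuspForm (f : CuspForm Γ 2) : IsNice ((1 : ℕ) : ℝ) (f : ℍ → ℂ) where
  mdiff := CuspFormClass.holo f
  periodic z := by
    have hmem : (((1 : ℕ) : ℝ)) ∈
        (Subgroup.map (Matrix.SpecialLinearGroup.mapGL ℝ) Γ).strictPeriods := by
      rw [Nat.cast_one, Subgroup.strictPeriods_eq_zmultiples_one_of_T_mem hT]
      exact AddSubgroup.mem_zmultiples (1 : ℝ)
    exact SlashInvariantForm.vAdd_apply_of_mem_strictPeriods f z hmem
  bdd := ModularFormClass.bdd_at_infty f

include hT in
theorem tgy_isQLaurentable_cuspForm (f : CuspForm Γ 2) : IsQLaurentable N (f : ℍ → ℂ) :=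
  (qLaurent_change_period N (tgy_isNice_cuspForm Γ hT f).isQLaurentable).1

include hT in
theorem tgy_qLaurent_cuspForm (f : CuspForm Γ 2) :
    qLaurent N (f : ℍ → ℂ)
      = qExpand ℂ N (HahnSeries.ofPowerSeries ℤ ℂ (qExpansion 1 (f : ℍ → ℂ))) := by
  rw [(qLaurent_change_period N (tgy_isNice_cuspForm Γ hT f).isQLaurentable).2,
    qLaurent_of_nice (tgy_isNice_cuspForm Γ hT f), Nat.cast_one]

/-- the `q_N`-expansion as a linear map on cusp forms -/
noncomputable def tgyCuspFormQL : CuspForm Γ 2 →ₗ[ℂ] LaurentSeries ℂ where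
  toFun f := qLaurent N (f : ℍ → ℂ)
  map_add' f g := by
    show qLaurent N (fun z => f z + g z) = _
    exact qLaurent_add (tgy_isQLaurentable_cuspForm N Γ hT f)
      (tgy_isQLaurentable_cuspForm N Γ hT g)
  map_smul' c f := by
    show qLaurent N (fun z => c * f z) = c • qLaurent N (f : ℍ → ℂ)
    have h1 := qLaurent_mul (IsQLaurentable.const N c) (tgy_isQLaurentable_cuspForm N Γ hT f)
    rw [h1, qLaurent_const, HahnSeries.C_mul_eq_smul]

theorem tgyCuspFormQL_apply (f : CuspForm Γ 2) :
    tgyCuspFormQL N Γ hT f = qLaurent N (f : ℍ → ℂ) := rfl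

end CuspForms

/-! ### The lower bound, generic form -/

section Generic

variable {𝕜 : Type} [Field 𝕜] [IsAlgClosed 𝕜] [Algebra 𝕜 ℂ] {N : ℕ} [NeZero N]
  (G : TgxGens 𝕜 N) (Γ : Subgroup SL(2, ℤ)) [Γ.FiniteIndex] (hT : ModularGroup.T ∈ Γ)

variable {F : Type*} [Field F] [Algebra 𝕜 F] (ψ : F →ₐ[𝕜] TgxField G)
variable {x : F} (hψx : ψ x = tgxJL G) (hx : IsFunctionFieldGen 𝕜 F x)

include hψx hx in
/-- **The dictionary**: the cusp form attached to a regular differential -/
theorem tgy_exists_cuspForm_of_regular {h : F}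
    (hreg : h • KaehlerDifferential.D 𝕜 F x ∈ regularDifferentials hx)
    (hfix : ∀ γ ∈ Γ, tgxRep G γ (ψ h) = ψ h) :
    ∃ f : CuspForm Γ 2,
      qLaurent N (f : ℍ → ℂ) = tgxFieldQL G (ψ h) * qLaurent N jPrime := by
  obtain ⟨f, hf, hinv, hz, -, hq⟩ := tgy_exists_form_of_regular G ψ hψx hx Γ hreg hfix
  exact ⟨cuspFormOfData Γ 2 f hf hinv hz, hq⟩

include hψx hx hT in
/-- the `q`-expansion (in `q = q_1`) of the cusp form attached to a regular differential -/
theorem tgy_exists_cuspForm_of_regular' {h : F}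
    (hreg : h • KaehlerDifferential.D 𝕜 F x ∈ regularDifferentials hx)
    (hfix : ∀ γ ∈ Γ, tgxRep G γ (ψ h) = ψ h)
    (y : LaurentSeries ℂ) (hy : tgxFieldQL G (ψ h) = qExpand ℂ N y) :
    ∃ f : CuspForm Γ 2,
      HahnSeries.ofPowerSeries ℤ ℂ (qExpansion 1 (f : ℍ → ℂ)) = y * qLaurent 1 jPrime := by
  obtain ⟨f, hf⟩ := tgy_exists_cuspForm_of_regular G Γ ψ hψx hx hreg hfix
  refine ⟨f, ?_⟩
  apply qExpand_injective (R := ℂ) N
  rw [← tgy_qLaurent_cuspForm N Γ hT, hf, hy, qLaurent_jPrime_level, map_mul]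

include hψx hx hT in
/-- **Lower bound**: the space of regular differentials is not bigger than the space of cusp
forms of weight two. -/
theorem tgy_finrank_regularDifferentials_le_of [Module.Finite ℂ (CuspForm Γ 2)]
    (hfix : ∀ (h : F), ∀ γ ∈ Γ, tgxRep G γ (ψ h) = ψ h)
    (hindep : ∀ {n : ℕ} (v : Fin n → F), LinearIndependent 𝕜 v →
      LinearIndependent ℂ (fun i => tgxFieldQL G (ψ (v i)))) :
    Module.finrank 𝕜 ↥(regularDifferentials hx)
      ≤ Module.finrank ℂ (CuspForm Γ 2) := by
  obtain ⟨L, hLinj, hL⟩ := exists_coeff_regularDifferentials hx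
  rcases Nat.eq_zero_or_pos (Module.finrank 𝕜 ↥(regularDifferentials hx)) with h0 | hpos
  · rw [h0]; exact Nat.zero_le _
  haveI : Module.Finite 𝕜 ↥(regularDifferentials hx) := Module.finite_of_finrank_pos hpos
  set n := Module.finrank 𝕜 ↥(regularDifferentials hx) with hn
  let b := Module.finBasis 𝕜 ↥(regularDifferentials hx)
  have hreg : ∀ i, (L (b i)) • KaehlerDifferential.D 𝕜 F x ∈ regularDifferentials hx := by
    intro i
    rw [hL]
    exact (b i).2
  choose f hf using fun i => tgy_exists_cuspForm_of_regular G Γ ψ hψx hx (hreg i) (hfix _)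
  have hv : LinearIndependent 𝕜 (fun i => L (b i)) :=
    b.linearIndependent.map' L (LinearMap.ker_eq_bot.mpr hLinj)
  have h1 := hindep (fun i => L (b i)) hv
  have hJ := qLaurent_jPrime_level_ne_zero N
  have h2 : LinearIndependent ℂ
      (fun i => tgxFieldQL G (ψ (L (b i))) * qLaurent N jPrime) := by
    let M : LaurentSeries ℂ →ₗ[ℂ] LaurentSeries ℂ :=
      { toFun := fun y => y * qLaurent N jPrime
        map_add' := fun y z => add_mul y z _
        map_smul' := fun c y => by
          rw [RingHom.id_apply, ← HahnSeries.C_mul_eq_smul, ← HahnSeries.C_mul_eq_smul, mul_assoc] }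
    have hinj : LinearMap.ker M = ⊥ := by
      rw [LinearMap.ker_eq_bot]
      intro y z hyz
      exact mul_right_cancel₀ hJ hyz
    exact h1.map' M hinj
  have h3 : LinearIndependent ℂ f := by
    apply LinearIndependent.of_comp (tgyCuspFormQL N Γ hT)
    have : (tgyCuspFormQL N Γ hT) ∘ f
        = fun i => tgxFieldQL G (ψ (L (b i))) * qLaurent N jPrime := by
      funext i
      exact hf i
    rw [this]
    exact h2
  have := h3.fintype_card_le_finrank
  simpa using this

end Generic

end Fermat.Agent.T1G
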