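/-
T1G TG-ES (E4) (helper7), part 4: **`genus ≤ dim S₂(Γ)`** for every function field
`F ⊆ 𝕜((q))` identified (compatibly with the `q`-expansions) with a `Γ`-invariant subfield of an
analytic model `TgxField G`; in particular for the data of a `TgdModel` (`iso`, `iso_ql`).
-/
import Mathlib
import Fermat.Agent.Lib.T1G.ES.DictLower
import Fermat.Agent.Lib.ES.DictMain
import Fermat.Prelude.Def_ModularCurve_LaurentCoeff

set_option autoImplicit false
set_option linter.unusedSectionVars false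
set_option linter.style.haveILetI false
set_option linter.unusedVariables false

namespace Fermat.Agent.T1G

open UpperHalfPlane Matrix MatrixGroups CongruenceSubgroup ModularCurve WithZero Filter Topology
open scoped ModularForm Manifold
open Fermat.Agent.S24Lib Fermat.Agent.Curve AlgebraicCurve Fermat.Agent.T1
open Fermat.Agent.ES
attribute [local instance] KMod.charZero_k

variable {𝕜 : Type} [Field 𝕜] [IsAlgClosed 𝕜] [Algebra 𝕜 ℂ] {N : ℕ} [NeZero N]
  (G : TgxGens 𝕜 N) (Γ : Subgroup SL(2, ℤ)) [Γ.FiniteIndex] (hT : ModularGroup.T ∈ Γ)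

section Field

variable (F : IntermediateField 𝕜 (LaurentSeries 𝕜)) (ψ : ↥F →ₐ[𝕜] TgxField G)
  (hql : ∀ y : ↥F, tgxFieldQL G (ψ y)
    = qExpand ℂ N (coeffMap (algebraMap 𝕜 ℂ) (y : LaurentSeries 𝕜)))

include hql in
theorem tgy_linearIndependent_ql {n : ℕ} (v : Fin n → ↥F) (hv : LinearIndependent 𝕜 v) :
    LinearIndependent ℂ (fun i => tgxFieldQL G (ψ (v i))) := by
  have h1 : LinearIndependent 𝕜 (fun i => ((v i : ↥F) : LaurentSeries 𝕜)) := by
    let V : ↥F →ₗ[𝕜] LaurentSeries 𝕜 :=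
      { toFun := fun h => (h : LaurentSeries 𝕜)
        map_add' := fun _ _ => rfl
        map_smul' := fun c h => by
          rw [RingHom.id_apply, ← HahnSeries.C_mul_eq_smul, Algebra.smul_def,
            MulMemClass.coe_mul]
          congr 1
          show algebraMap 𝕜 (LaurentSeries 𝕜) c = HahnSeries.C c
          rw [algebraMap_laurentSeries_eq_single]
          rfl }
    exact hv.map' V (LinearMap.ker_eq_bot.mpr Subtype.val_injective)
  have h2 := linearIndependent_coeffMap_ringHom (algebraMap 𝕜 ℂ) _ h1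
  have h3 := h2.map' (qExpandLin N) (LinearMap.ker_eq_bot.mpr (qExpand_injective N))
  have : (fun i => tgxFieldQL G (ψ (v i)))
      = (qExpandLin N) ∘ fun i => coeffMap (algebraMap 𝕜 ℂ) ((v i : ↥F) : LaurentSeries 𝕜) := by
    funext i
    exact hql (v i)
  rw [this]
  exact h3

include hql in
/-- the `j`-function of `F` goes to the `j`-function of the analytic model -/
theorem tgy_psi_j (hj : jqModC 𝕜 ∈ F) : ψ ⟨jqModC 𝕜, hj⟩ = tgxJL G := by
  apply tgxFieldQL_injective G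
  rw [hql, tgxJL, tgxFieldQL_algebraMap, tgxRingQL_jR, coeffMap_jqModC]

include hT hql in
/-- **`dim Ω(0) ≤ dim S₂(Γ)`** -/
theorem tgy_finrank_regularDifferentials_le [Module.Finite ℂ (CuspForm Γ 2)]
    (hfix : ∀ (y : ↥F), ∀ γ ∈ Γ, tgxRep G γ (ψ y) = ψ y)
    (hj : jqModC 𝕜 ∈ F) (hx : IsFunctionFieldGen 𝕜 ↥F ⟨jqModC 𝕜, hj⟩) :
    Module.finrank 𝕜 ↥(regularDifferentials hx) ≤ Module.finrank ℂ (CuspForm Γ 2) :=
  tgy_finrank_regularDifferentials_le_of G Γ hT ψ (tgy_psi_j G F ψ hql hj) hx hfix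
    (fun v hv => tgy_linearIndependent_ql G F ψ hql v hv)

include hT hql in
/-- **`genus ≤ dim S₂(Γ)`** -/
theorem tgy_genusR_le [Module.Finite ℂ (CuspForm Γ 2)]
    (hfix : ∀ (y : ↥F), ∀ γ ∈ Γ, tgxRep G γ (ψ y) = ψ y)
    (hj : jqModC 𝕜 ∈ F) (hx : IsFunctionFieldGen 𝕜 ↥F ⟨jqModC 𝕜, hj⟩) :
    genusR 𝕜 ↥F ≤ Module.finrank ℂ (CuspForm Γ 2) := by
  rw [← finrank_regularDifferentials hx]
  exact tgy_finrank_regularDifferentials_le G Γ hT F ψ hql hfix hj hx

end Field

/-! ### The data of a `TgdModel` -/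

section Model

variable [Algebra ℚ 𝕜] (F₀ : IntermediateField ℚ (LaurentSeries ℚ))
  (iso : ↥(laurentBaseChange 𝕜 F₀) ≃ₐ[𝕜] ↥(IntermediateField.fixedField (Γ.map (tgxRep G))))
  (iso_ql : ∀ y : ↥(laurentBaseChange 𝕜 F₀),
    tgxFieldQL G ((iso y : ↥(IntermediateField.fixedField (Γ.map (tgxRep G)))) : TgxField G)
      = qExpand ℂ N (coeffMap (algebraMap 𝕜 ℂ) (y : LaurentSeries 𝕜)))

include hT iso_ql in
/-- **`genus ≤ dim S₂(Γ)`** for the function field of an analytic model of `Γ` -/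
theorem tgy_genusR_le_of_model [Module.Finite ℂ (CuspForm Γ 2)]
    (hj : jqModC 𝕜 ∈ laurentBaseChange 𝕜 F₀)
    (hx : IsFunctionFieldGen 𝕜 ↥(laurentBaseChange 𝕜 F₀) ⟨jqModC 𝕜, hj⟩) :
    genusR 𝕜 ↥(laurentBaseChange 𝕜 F₀) ≤ Module.finrank ℂ (CuspForm Γ 2) :=
  tgy_genusR_le G Γ hT (laurentBaseChange 𝕜 F₀)
    ((IntermediateField.fixedField (Γ.map (tgxRep G))).val.comp iso.toAlgHom)
    iso_ql (fun y γ hγ => (iso y).2 ⟨tgxRep G γ, γ, hγ, rfl⟩) hj hx

end Model

end Fermat.Agent.T1G
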