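/-
T1G TG-ES (E4) (helper7), final glue: the `Γ₁(M)`-field `TgOne 𝕜 M ζ` sits inside the analytic
full level model `TgxField (tgxFull 𝕜 M)` (helper1) as a `Γ₁(M)`-invariant subfield, compatibly
with the `q`-expansions; hence `genus ≤ dim S₂(Γ₁(M))`, and with the genus formula
`12 g + 6 c = n + 12` (helper5) and the group-theoretic bound: **the Eichler–Shimura pairing
`tgePair (Γ₁(M))` is surjective for `6 ≤ M`**.
-/
import Mathlib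
import Fermat.Agent.Lib.T1G.ES.DictMain
import Fermat.Agent.Lib.T1G.GMod.FullGalois
import Fermat.Agent.Lib.T1G.GMod.GenusFull
import Fermat.Agent.Lib.T1G.ES.Bridge
import Fermat.Agent.Lib.DS.Hecke.FinDim

set_option autoImplicit false
set_option linter.unusedSectionVars false
set_option linter.style.haveILetI false
set_option linter.unusedVariables false

namespace Fermat.Agent.T1G

open UpperHalfPlane Matrix MatrixGroups CongruenceSubgroup ModularCurve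
open Fermat.Agent.S24Lib Fermat.Agent.Curve AlgebraicCurve Fermat.Agent.T1
open Fermat.Agent.ES Fermat.Agent.DS
attribute [local instance] KMod.charZero_k

variable (𝕜 : Type) [Field 𝕜] [IsAlgClosed 𝕜] [Algebra 𝕜 ℂ] (M : ℕ) [NeZero M]

/-- the `Γ₁(M)`-field inside the analytic full level model -/
noncomputable def tgyOnePsi : ↥(TgOne 𝕜 M (tgxZeta 𝕜 M)) →ₐ[𝕜] TgxField (tgxFull 𝕜 M) :=
  ((tgxFullIso 𝕜 M).symm : ↥(tgFull 𝕜 M (tgxZeta 𝕜 M)) →ₐ[𝕜] TgxField (tgxFull 𝕜 M)).comp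
    (tgOneIncl 𝕜 M (tgxZeta 𝕜 M))

theorem tgxFullIso_tgyOnePsi (y : ↥(TgOne 𝕜 M (tgxZeta 𝕜 M))) :
    tgxFullIso 𝕜 M (tgyOnePsi 𝕜 M y) = tgOneIncl 𝕜 M (tgxZeta 𝕜 M) y := by
  show tgxFullIso 𝕜 M ((tgxFullIso 𝕜 M).symm _) = _
  rw [AlgEquiv.apply_symm_apply]
  rfl

theorem tgyOnePsi_ql (y : ↥(TgOne 𝕜 M (tgxZeta 𝕜 M))) :
    tgxFieldQL (tgxFull 𝕜 M) (tgyOnePsi 𝕜 M y)
      = qExpand ℂ M (coeffMap (algebraMap 𝕜 ℂ) (y : LaurentSeries 𝕜)) := by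
  rw [← coeffMap_tgxFullIso, tgxFullIso_tgyOnePsi, coe_tgOneIncl, coeffMap_qExpand]

theorem tgyOnePsi_fix (hM : 6 ≤ M) (y : ↥(TgOne 𝕜 M (tgxZeta 𝕜 M))) {γ : SL(2, ℤ)}
    (hγ : γ ∈ Gamma1 M) :
    tgxRep (tgxFull 𝕜 M) γ (tgyOnePsi 𝕜 M y) = tgyOnePsi 𝕜 M y := by
  apply (tgxFullIso 𝕜 M).injective
  rw [← tgxFullRho_iso, tgxFullIso_tgyOnePsi]
  exact (tgGalois_an 𝕜 M).ρ_tgOneIncl (tgxZeta_isPrimitiveRoot 𝕜 M) hM (le_tgPm _ hγ) y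

/-- **`genus ≤ dim S₂(Γ₁(M))`** for the `Γ₁(M)`-field -/
theorem tgy_genusR_tgOne_le (hM : 6 ≤ M) :
    genusR 𝕜 ↥(TgOne 𝕜 M (tgxZeta 𝕜 M)) ≤ Module.finrank ℂ (CuspForm (Gamma1 M) 2) := by
  have hT : ModularGroup.T ∈ Gamma1 M := by
    rw [Gamma1_mem]
    simp [ModularGroup.T]
  exact tgy_genusR_le (tgxFull 𝕜 M) (Gamma1 M) hT (TgOne 𝕜 M (tgxZeta 𝕜 M)) (tgyOnePsi 𝕜 M)
    (tgyOnePsi_ql 𝕜 M) (fun y γ hγ => tgyOnePsi_fix 𝕜 M hM y hγ)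
    (jqModC_mem_tgOne 𝕜 M (tgxZeta 𝕜 M))
    ((tgGalois_an 𝕜 M).isFunctionFieldGen_tgOneJ (tgxZeta_isPrimitiveRoot 𝕜 M) hM)

/-- the numerical hypothesis of `tgePair_surjective_Gamma1` -/
theorem tgy_index_le (M : ℕ) [NeZero M] (hM : 6 ≤ M) :
    (tgPm (Gamma1 M)).index + 12 ≤ 12 * Module.finrank ℂ (CuspForm (Gamma1 M) 2)
      + 6 * Nat.card (MulAction.orbitRel.Quotient (Subgroup.zpowers ModularGroup.T)
            (SL(2, ℤ) ⧸ tgPm (Gamma1 M))) := by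
  have h1 := (tgGalois_an ℂ M).genus_tgOne (tgxZeta_isPrimitiveRoot ℂ M) hM
    (tgxCoverFull (tgGalois_an ℂ M) (tgxFull ℂ M) (tgxFullIso ℂ M) (tgxFullRho_iso ℂ M)
      (tgxFullIso_jL ℂ M))
  have h2 := tgy_genusR_tgOne_le ℂ M hM
  unfold tgnCusps tgnDeg TgnCosets at h1
  omega

/-- **the Eichler–Shimura pairing of `Γ₁(M)` is surjective** (`6 ≤ M`) -/
theorem tgePair_surjective_Gamma1_six (M : ℕ) [NeZero M] (hM : 6 ≤ M) :
    Function.Surjective (tgePair (Gamma1 M)) :=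
  tgePair_surjective_Gamma1 M (by omega) (tgy_index_le M hM)

end Fermat.Agent.T1G
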