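/-
TG-ES (E6), Hecke part: the operators `T_p`, `U_r`, `⟨d⟩` on `S₂(Γ₁(M))` preserve the lattice
`L = parabolicHoms ℤ Γ₁(M) ℤ` (under `Φ : S₂ × S₂ ≃ ℂ ⊗ L`), acting through the abstract Hecke
operators of the coset systems; the ring homomorphism from any algebra generated by
lattice-preserving operators to `End_ℤ(L)`.
-/
import Mathlib
import Fermat.Agent.Lib.T1G.ES.Lattice

set_option autoImplicit false

namespace Fermat.Agent.T1G

open Matrix MatrixGroups CongruenceSubgroup ModularCurve ModularCurve.Period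
open Fermat.Agent.T1 Fermat.Agent.ES Fermat.Agent.DS
open scoped TensorProduct

noncomputable section

/-! ### The Hecke action of an algebra generated by lattice preserving operators -/

section Gen

variable (Γ : Subgroup SL(2, ℤ)) [Γ.FiniteIndex] [TgeJStable Γ]
  (hsurj : Function.Surjective (tgePair Γ))
  (G : Set (Module.End ℂ (CuspForm Γ 2)))
  (hG : ∀ g ∈ G, ∃ s, TdmLat (tgePhi Γ hsurj) g s)

include hG in
/-- every element of the algebra generated by `G` preserves the lattice -/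
theorem tge_adjoin_lat (t : Algebra.adjoin ℤ G) :
    ∃ s, TdmLat (tgePhi Γ hsurj) ((Algebra.adjoin ℤ G).val.toRingHom t) s :=
  tdm_exists_lat G hG t.1 t.2

/-- **the Hecke action on the lattice** of the algebra generated by a set `G` of lattice preserving
operators -/
def tgeHeckeGen : Algebra.adjoin ℤ G →+* Module.End ℤ ↥(tgeL Γ) :=
  tdmHeckeAbs (Φ := tgePhi Γ hsurj) (Algebra.adjoin ℤ G).val.toRingHom
    (tge_adjoin_lat Γ hsurj G hG)

/-- `tgeHeckeGen t ⊗ ℂ` corresponds to `t × t` under `Φ` -/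
theorem tgeHeckeGen_spec (t : Algebra.adjoin ℤ G) (f g : CuspForm Γ 2) :
    (tgeHeckeGen Γ hsurj G hG t).baseChange ℂ (tgePhi Γ hsurj (f, g))
      = tgePhi Γ hsurj ((t : Module.End ℂ (CuspForm Γ 2)) f,
          (t : Module.End ℂ (CuspForm Γ 2)) g) :=
  tdmHeckeAbs_spec (Φ := tgePhi Γ hsurj) (Algebra.adjoin ℤ G).val.toRingHom
    (tge_adjoin_lat Γ hsurj G hG) t f g

theorem tgeHeckeGen_eq {t : Algebra.adjoin ℤ G} {s : Module.End ℤ ↥(tgeL Γ)}
    (h : TdmLat (tgePhi Γ hsurj) (t : Module.End ℂ (CuspForm Γ 2)) s) :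
    tgeHeckeGen Γ hsurj G hG t = s :=
  tdmHeckeAbs_eq (Φ := tgePhi Γ hsurj) (Algebra.adjoin ℤ G).val.toRingHom
    (tge_adjoin_lat Γ hsurj G hG) (a := t) h

/-- the Hecke action commutes with the involution `w = (φ ↦ φ ∘ J)` of the lattice -/
theorem tgeHeckeGen_comm_tgeW (t : Algebra.adjoin ℤ G) :
    tgeHeckeGen Γ hsurj G hG t ∘ₗ tgeW Γ ℤ ℤ = tgeW Γ ℤ ℤ ∘ₗ tgeHeckeGen Γ hsurj G hG t := by
  refine LinearMap.ext fun l => ?_
  apply tdm_tmul_one_injective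
  show (1 : ℂ) ⊗ₜ[ℤ] _ = (1 : ℂ) ⊗ₜ[ℤ] _
  obtain ⟨⟨f, g⟩, hfg⟩ := (tgePhi Γ hsurj).surjective ((1 : ℂ) ⊗ₜ[ℤ] l)
  rw [LinearMap.comp_apply, LinearMap.comp_apply, ← LinearMap.baseChange_tmul,
    ← LinearMap.baseChange_tmul, ← LinearMap.baseChange_tmul (tgeW Γ ℤ ℤ),
    ← LinearMap.baseChange_tmul (tgeHeckeGen Γ hsurj G hG t), ← hfg, tgeW_spec,
    tgeHeckeGen_spec, tgeHeckeGen_spec, tgeW_spec, map_neg]

end Gen

/-! ### The generators for `Γ₁(M)` -/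

section Gamma1

variable {M : ℕ} [NeZero M] (hsurj : Function.Surjective (tgePair (Gamma1 M)))

theorem tgeLat_T {p : ℕ} (hp : p.Prime) (hpM : ¬ p ∣ M) :
    TdmLat (tgePhi (Gamma1 M) hsurj) (dshTLin 2 hp hpM) ((tgmSysT M hp hpM).homPar ℤ ℤ) :=
  tgeLat_of_comm (Gamma1 M) hsurj _ _ (fun f => tge_period_dshTLin hp hpM f)
    (fun φ => tgmSysT_tgeInv M hp hpM ℂ ℂ φ)

theorem tgeLat_U {r : ℕ} (hrM : r ∣ M) (hr0 : r ≠ 0) :
    TdmLat (tgePhi (Gamma1 M) hsurj) (dshULin 2 hrM) ((tgmSysU M hrM hr0).homPar ℤ ℤ) :=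
  tgeLat_of_comm (Gamma1 M) hsurj _ _ (fun f => tge_period_dshULin hrM hr0 f)
    (fun φ => tgmSysU_tgeInv M hrM hr0 ℂ ℂ φ)

theorem tgeLat_D (d : (ZMod M)ˣ) :
    TdmLat (tgePhi (Gamma1 M) hsurj) (dshDiamond 2 M d) ((tgmSysD M d).homPar ℤ ℤ) :=
  tgeLat_of_comm (Gamma1 M) hsurj _ _ (fun f => tge_period_dshDiamond d f)
    (fun φ => tgmSysD_tgeInv M d ℂ ℂ φ)

end Gamma1

end

end Fermat.Agent.T1G
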