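/-
TG-ES (E6) final glue (helper7): the Hecke algebra `tgHeckeAlg M S` of weight two and level `Γ₁(M)`
acts on the lattice `L = parabolicHoms ℤ Γ₁(M) ℤ` (`tgeHecke`) and on the `p`-adic Tate module
`T = parabolicHoms ℤ_p Γ₁(M) ℤ_p` (`tgeHeckeT`), through the abstract Hecke operators of the coset
systems `tgmSysT`, `tgmSysU`, `tgmSysD`; multiplicity two (H5) and the non-scalarity of complex
conjugation (H6) for the Tate module (from TG-MULT, `Mult/Cusp.lean`).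
The hypothesis `hsurj` is `tgePair_surjective_Gamma1_six M hM` (`ES/DictModel.lean`) for `6 ≤ M`.
-/
import Mathlib
import Fermat.Agent.Lib.T1G.ES.LatticeHecke
import Fermat.Agent.Lib.T1G.Mult.Cusp

set_option autoImplicit false
set_option linter.unusedSectionVars false

namespace Fermat.Agent.T1G

open Matrix MatrixGroups CongruenceSubgroup ModularCurve ModularCurve.Period
open Fermat.Agent.T1 Fermat.Agent.ES Fermat.Agent.DS
open scoped TensorProduct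

noncomputable section

variable (M : ℕ) [NeZero M] (hsurj : Function.Surjective (tgePair (Gamma1 M))) (S : Set ℕ)

/-! ### The action on the lattice -/

/-- the generators of the Hecke algebra preserve the lattice -/
theorem tge_gens_lat : ∀ g ∈ tgHeckeGens M S, ∃ s, TdmLat (tgePhi (Gamma1 M) hsurj) g s := by
  rintro g ((⟨p, hp, hpM, -, rfl⟩ | ⟨p, hp, hpM, -, rfl⟩) | ⟨d, rfl⟩)
  · exact ⟨_, tgeLat_T hsurj hp hpM⟩
  · exact ⟨_, tgeLat_U hsurj hpM hp.ne_zero⟩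
  · exact ⟨_, tgeLat_D hsurj d⟩

/-- every Hecke operator preserves the lattice -/
theorem tge_heckeAlg_lat (t : tgHeckeAlg M S) :
    ∃ s, TdmLat (tgePhi (Gamma1 M) hsurj) ((tgHeckeAlg M S).val.toRingHom t) s := by
  have ht : (t : Module.End ℂ (CuspForm (Gamma1 M) 2)) ∈ Algebra.adjoin ℤ (tgHeckeGens M S) := by
    rw [← tgHeckeAlg_eq]
    exact t.2
  exact tdm_exists_lat (tgHeckeGens M S) (tge_gens_lat M hsurj S) _ ht

/-- **the Hecke action on the lattice** `L = parabolicHoms ℤ Γ₁(M) ℤ` -/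
def tgeHecke : tgHeckeAlg M S →+* Module.End ℤ ↥(tgeL (Gamma1 M)) :=
  tdmHeckeAbs (Φ := tgePhi (Gamma1 M) hsurj) (tgHeckeAlg M S).val.toRingHom
    (tge_heckeAlg_lat M hsurj S)

/-- `tgeHecke t ⊗ ℂ` corresponds to `t × t` under `Φ` -/
theorem tgeHecke_spec (t : tgHeckeAlg M S) (f g : CuspForm (Gamma1 M) 2) :
    (tgeHecke M hsurj S t).baseChange ℂ (tgePhi (Gamma1 M) hsurj (f, g))
      = tgePhi (Gamma1 M) hsurj ((t : Module.End ℂ (CuspForm (Gamma1 M) 2)) f,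
          (t : Module.End ℂ (CuspForm (Gamma1 M) 2)) g) :=
  tdmHeckeAbs_spec (Φ := tgePhi (Gamma1 M) hsurj) (tgHeckeAlg M S).val.toRingHom
    (tge_heckeAlg_lat M hsurj S) t f g

variable {M S}

theorem tgeHecke_eq {t : tgHeckeAlg M S} {s : Module.End ℤ ↥(tgeL (Gamma1 M))}
    (h : TdmLat (tgePhi (Gamma1 M) hsurj) (t : Module.End ℂ (CuspForm (Gamma1 M) 2)) s) :
    tgeHecke M hsurj S t = s :=
  tdmHeckeAbs_eq (Φ := tgePhi (Gamma1 M) hsurj) (tgHeckeAlg M S).val.toRingHom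
    (tge_heckeAlg_lat M hsurj S) (a := t) h

theorem tgeHecke_T {p : ℕ} (hp : p.Prime) (hpM : ¬ p ∣ M) (hpS : p ∉ S) :
    tgeHecke M hsurj S (tgT hp hpM hpS) = (tgmSysT M hp hpM).homPar ℤ ℤ :=
  tgeHecke_eq hsurj (tgeLat_T hsurj hp hpM)

theorem tgeHecke_U {p : ℕ} (hp : p.Prime) (hpM : p ∣ M) (hpS : p ∉ S) :
    tgeHecke M hsurj S (tgU hp hpM hpS) = (tgmSysU M hpM hp.ne_zero).homPar ℤ ℤ :=
  tgeHecke_eq hsurj (tgeLat_U hsurj hpM hp.ne_zero)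

theorem tgeHecke_D (d : (ZMod M)ˣ) :
    tgeHecke M hsurj S (tgDia M S d) = (tgmSysD M d).homPar ℤ ℤ :=
  tgeHecke_eq hsurj (tgeLat_D hsurj d)

variable (M)

theorem tgeW_mul_self : tgeW (Gamma1 M) ℤ ℤ * tgeW (Gamma1 M) ℤ ℤ = 1 :=
  LinearMap.ext fun φ => tgeW_tgeW (Gamma1 M) ℤ ℤ φ

variable {M}

/-- the Hecke operators commute with the involution on the lattice -/
theorem tgeHecke_comm_tgeW (t : tgHeckeAlg M S) :
    tgeHecke M hsurj S t * tgeW (Gamma1 M) ℤ ℤ = tgeW (Gamma1 M) ℤ ℤ * tgeHecke M hsurj S t := by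
  have key : TdmLat (tgePhi (Gamma1 M) hsurj) (t : Module.End ℂ (CuspForm (Gamma1 M) 2))
      (tgeW (Gamma1 M) ℤ ℤ * tgeHecke M hsurj S t * tgeW (Gamma1 M) ℤ ℤ) := by
    intro f g
    rw [Module.End.mul_eq_comp, Module.End.mul_eq_comp, LinearMap.baseChange_comp,
      LinearMap.baseChange_comp, LinearMap.comp_apply, LinearMap.comp_apply, tgeW_spec,
      tgeHecke_spec, tgeW_spec, map_neg, neg_neg]
  have h := tgeHecke_eq hsurj key
  calc tgeHecke M hsurj S t * tgeW (Gamma1 M) ℤ ℤ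
      = (tgeW (Gamma1 M) ℤ ℤ * tgeHecke M hsurj S t * tgeW (Gamma1 M) ℤ ℤ)
          * tgeW (Gamma1 M) ℤ ℤ := by rw [← h]
    _ = tgeW (Gamma1 M) ℤ ℤ * tgeHecke M hsurj S t
          * (tgeW (Gamma1 M) ℤ ℤ * tgeW (Gamma1 M) ℤ ℤ) := by rw [mul_assoc]
    _ = tgeW (Gamma1 M) ℤ ℤ * tgeHecke M hsurj S t := by rw [tgeW_mul_self, mul_one]

/-! ### The action on the `p`-adic Tate module -/

variable (p : ℕ) [Fact p.Prime] (M)

/-- the `p`-adic Tate module -/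
abbrev tgeT : Submodule ℤ_[p] (Additive (Gamma1 M) →+ ℤ_[p]) :=
  parabolicHoms ℤ_[p] (Gamma1 M) ℤ_[p]

variable (S)

/-- the Hecke action on the Tate module: transport of `tgeHecke t ⊗ ℤ_p` along `tgeBC` -/
def tgeHeckeT : tgHeckeAlg M S →+* Module.End ℤ_[p] ↥(tgeT M p) where
  toFun t := (tgeBC (Gamma1 M) ℤ_[p]).conj ((tgeHecke M hsurj S t).baseChange ℤ_[p])
  map_one' := by
    rw [map_one, Module.End.one_eq_id, LinearMap.baseChange_id, ← Module.End.one_eq_id]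
    exact map_one (tgeBC (Gamma1 M) ℤ_[p]).conjRingEquiv
  map_mul' a b := by
    rw [map_mul, Module.End.mul_eq_comp, LinearMap.baseChange_comp, ← Module.End.mul_eq_comp]
    exact map_mul (tgeBC (Gamma1 M) ℤ_[p]).conjRingEquiv _ _
  map_zero' := by
    rw [map_zero, LinearMap.baseChange_zero, map_zero]
  map_add' a b := by
    rw [map_add, LinearMap.baseChange_add, map_add]

variable {S}

theorem tgeHeckeT_apply (t : tgHeckeAlg M S) (x : ℤ_[p] ⊗[ℤ] ↥(tgeL (Gamma1 M))) :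
    tgeBC (Gamma1 M) ℤ_[p] ((tgeHecke M hsurj S t).baseChange ℤ_[p] x)
      = tgeHeckeT M hsurj S p t (tgeBC (Gamma1 M) ℤ_[p] x) := by
  show _ = (tgeBC (Gamma1 M) ℤ_[p]).conj ((tgeHecke M hsurj S t).baseChange ℤ_[p])
    (tgeBC (Gamma1 M) ℤ_[p] x)
  rw [LinearEquiv.conj_apply_apply, LinearEquiv.symm_apply_apply]

theorem tgeHeckeT_eq_of {t : tgHeckeAlg M S} {ι : Type} [Fintype ι]
    (Sy : tdmCosetSys (Gamma1 M) ι) (h : tgeHecke M hsurj S t = Sy.homPar ℤ ℤ) :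
    tgeHeckeT M hsurj S p t = Sy.homPar ℤ_[p] ℤ_[p] := by
  refine LinearMap.ext fun y => ?_
  obtain ⟨x, rfl⟩ := (tgeBC (Gamma1 M) ℤ_[p]).surjective y
  rw [← tgeHeckeT_apply, h, tgeBC_homPar]

variable {M}

theorem tgeHeckeT_T {l : ℕ} (hl : l.Prime) (hlM : ¬ l ∣ M) (hlS : l ∉ S) :
    tgeHeckeT M hsurj S p (tgT hl hlM hlS) = (tgmSysT M hl hlM).homPar ℤ_[p] ℤ_[p] :=
  tgeHeckeT_eq_of M hsurj p _ (tgeHecke_T hsurj hl hlM hlS)

theorem tgeHeckeT_U {l : ℕ} (hl : l.Prime) (hlM : l ∣ M) (hlS : l ∉ S) :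
    tgeHeckeT M hsurj S p (tgU hl hlM hlS) = (tgmSysU M hlM hl.ne_zero).homPar ℤ_[p] ℤ_[p] :=
  tgeHeckeT_eq_of M hsurj p _ (tgeHecke_U hsurj hl hlM hlS)

theorem tgeHeckeT_D (d : (ZMod M)ˣ) :
    tgeHeckeT M hsurj S p (tgDia M S d) = (tgmSysD M d).homPar ℤ_[p] ℤ_[p] :=
  tgeHeckeT_eq_of M hsurj p _ (tgeHecke_D hsurj d)

theorem tgeHeckeT_apply_T {l : ℕ} (hl : l.Prime) (hlM : ¬ l ∣ M) (hlS : l ∉ S)
    (φ : ↥(tgeT M p)) :
    ((tgeHeckeT M hsurj S p (tgT hl hlM hlS) φ : ↥(tgeT M p)) : Additive (Gamma1 M) →+ ℤ_[p])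
      = (tgmSysT M hl hlM).hom ℤ_[p] (φ : Additive (Gamma1 M) →+ ℤ_[p]) := by
  rw [tgeHeckeT_T]; rfl

theorem tgeHeckeT_apply_U {l : ℕ} (hl : l.Prime) (hlM : l ∣ M) (hlS : l ∉ S)
    (φ : ↥(tgeT M p)) :
    ((tgeHeckeT M hsurj S p (tgU hl hlM hlS) φ : ↥(tgeT M p)) : Additive (Gamma1 M) →+ ℤ_[p])
      = (tgmSysU M hlM hl.ne_zero).hom ℤ_[p] (φ : Additive (Gamma1 M) →+ ℤ_[p]) := by
  rw [tgeHeckeT_U]; rfl

theorem tgeHeckeT_apply_D (d : (ZMod M)ˣ) (φ : ↥(tgeT M p)) :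
    ((tgeHeckeT M hsurj S p (tgDia M S d) φ : ↥(tgeT M p)) : Additive (Gamma1 M) →+ ℤ_[p])
      = (tgmSysD M d).hom ℤ_[p] (φ : Additive (Gamma1 M) →+ ℤ_[p]) := by
  rw [tgeHeckeT_D]; rfl

/-- the Hecke operators commute with the involution on the Tate module -/
theorem tgeHeckeT_comm_tgeW (t : tgHeckeAlg M S) (φ : ↥(tgeT M p)) :
    tgeHeckeT M hsurj S p t (tgeW (Gamma1 M) ℤ_[p] ℤ_[p] φ)
      = tgeW (Gamma1 M) ℤ_[p] ℤ_[p] (tgeHeckeT M hsurj S p t φ) := by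
  obtain ⟨x, rfl⟩ := (tgeBC (Gamma1 M) ℤ_[p]).surjective φ
  rw [← tgeBC_tgeW, ← tgeHeckeT_apply, ← tgeHeckeT_apply, ← tgeBC_tgeW,
    ← LinearMap.comp_apply, ← LinearMap.comp_apply, ← LinearMap.baseChange_comp,
    ← LinearMap.baseChange_comp, ← Module.End.mul_eq_comp, ← Module.End.mul_eq_comp,
    tgeHecke_comm_tgeW]

/-! ### Multiplicity two and complex conjugation -/

variable {𝒪 : Type} [CommRing 𝒪] [IsDomain 𝒪] [CharZero 𝒪] [Algebra ℤ_[p] 𝒪]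
  (lamO : tgHeckeAlg M (∅ : Set ℕ) →+* 𝒪)

/-- **(H5)** for the Tate module of `J₁(M)` -/
theorem tge_finrank_teEigen :
    Module.finrank 𝒪 ↥(teEigen (T := ↥(tgeT M p)) (tgeHeckeT M hsurj ∅ p) lamO) = 2 :=
  tgk_finrank_teEigen (tgeHecke M hsurj ∅) (tgePhi (Gamma1 M) hsurj) (tgeHecke_spec M hsurj ∅)
    (tgeBC (Gamma1 M) ℤ_[p]) (tgeHeckeT M hsurj ∅ p) (tgeHeckeT_apply M hsurj p) lamO

/-- **(H6)** for the Tate module of `J₁(M)`: `-ι` (the action of complex conjugation) is not a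
scalar on the eigen-lattice -/
theorem tge_exists_not_scalar_teEigen :
    ∃ v ∈ teEigen (T := ↥(tgeT M p)) (tgeHeckeT M hsurj ∅ p) lamO, ∀ z : 𝒪,
      (-(tgeW (Gamma1 M) ℤ_[p] ℤ_[p])).baseChange 𝒪 v ≠ z • v :=
  tgk_exists_not_scalar_teEigen_neg (tgeHecke M hsurj ∅) (tgePhi (Gamma1 M) hsurj)
    (tgeHecke_spec M hsurj ∅) (tgeW (Gamma1 M) ℤ ℤ) (tgeW_spec (Gamma1 M) hsurj)
    (tgeBC (Gamma1 M) ℤ_[p]) (tgeHeckeT M hsurj ∅ p) (tgeHeckeT_apply M hsurj p) lamO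
    (-(tgeW (Gamma1 M) ℤ_[p] ℤ_[p]))
    (fun x => by
      rw [LinearMap.baseChange_neg, LinearMap.neg_apply, map_neg, tgeBC_tgeW,
        LinearMap.neg_apply])

end

end Fermat.Agent.T1G
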