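/-
TG-ES (E1): the period map `S₂(Γ) → Hom(Γ, ℂ)` of a finite index subgroup `Γ ≤ SL(2, ℤ)`:
linearity, vanishing on parabolic elements, and the general comparison principle
"the primitive of `g` is (up to a constant) the sum of the translates of the primitive of `f`
under a coset system ⟹ `P_g` is the abstract Hecke operator applied to `P_f`".
-/
import Mathlib
import Fermat.Prelude.Def_ModularCurve_PeriodHomPair
import Fermat.Agent.Lib.ES.Primitive
import Fermat.Agent.Lib.ES.Parabolic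
import Fermat.Agent.Lib.S22.CuspFormCuspidal
import Fermat.Agent.Lib.T1.Mono.Period

set_option autoImplicit false

namespace Fermat.Agent.T1G

open UpperHalfPlane hiding I
open Complex Derivative Filter Function CongruenceSubgroup Matrix
open scoped Manifold Topology Real ModularForm MatrixGroups
open Fermat.Agent.S22Lib Fermat.Agent.ES Fermat.Agent.T1 ModularCurve ModularCurve.Period

noncomputable section

/-! ### Function level: primitives up to constants -/

/-- a primitive of a cuspidal function differs from `prim f` by a constant -/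
theorem tge_exists_const_of_hasDerivAt {f : ℍ → ℂ} (hf : IsCuspidalAll 2 f) {F : ℍ → ℂ}
    (hF : ∀ τ : ℍ, HasDerivAt (F ∘ ofComplex) (f τ) ↑τ) :
    ∃ C : ℂ, ∀ τ : ℍ, prim f τ = F τ + C := by
  have hFd : MDiff F := by
    rw [mdifferentiable_iff]
    intro z hz
    exact ((hF ⟨z, hz⟩).differentiableAt).differentiableWithinAt
  have hG : MDiff (prim f - F) := (mdiff_prim hf).sub hFd
  have hD : D (prim f - F) = 0 := by
    ext τ
    simp only [normalizedDerivOfComplex, Pi.zero_apply]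
    have h1 : HasDerivAt ((prim f - F) ∘ ofComplex) (f τ - f τ) ↑τ :=
      (hasDerivAt_prim hf τ).sub (hF τ)
    rw [h1.deriv, sub_self, mul_zero]
  obtain ⟨c, hc⟩ := exists_const_of_D_eq_zero hG hD
  refine ⟨c, fun τ => ?_⟩
  have := hc τ
  rw [Pi.sub_apply] at this
  linear_combination this

/-! ### The period map -/

variable (Γ : Subgroup SL(2, ℤ))

theorem tge_slash_eq (f : CuspForm Γ 2) (γ : SL(2, ℤ)) (hγ : γ ∈ Γ) :
    (⇑f) ∣[(2 : ℤ)] γ = ⇑f := by
  have hmem : (Matrix.SpecialLinearGroup.mapGL ℝ γ) ∈ (Γ : Subgroup (GL (Fin 2) ℝ)) :=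
    Subgroup.mem_map_of_mem _ hγ
  exact SlashInvariantForm.slash_action_eqn f _ hmem

variable [Γ.FiniteIndex]

theorem tge_isCuspidalAll (f : CuspForm Γ 2) : IsCuspidalAll 2 ⇑f :=
  fun g => isCuspidal_slash_of_arithmetic _ 2 f g

theorem tge_isEquivariantPrimitive (f : CuspForm Γ 2) :
    IsEquivariantPrimitive Γ (prim ⇑f) :=
  fun γ => exists_const_prim_smul_sub (tge_isCuspidalAll Γ f) γ (tge_slash_eq Γ f γ γ.2)

/-- the period homomorphism `γ ↦ ∫_z^{γz} f` of a weight two cusp form on `Γ` -/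
def tgePeriodHom (f : CuspForm Γ 2) : Additive Γ →+ ℂ :=
  (tge_isEquivariantPrimitive Γ f).periodHom

/-- formula for the period homomorphism, at an arbitrary base point -/
theorem tgePeriodHom_apply (f : CuspForm Γ 2) (γ : Γ) (z : ℍ) :
    tgePeriodHom Γ f (Additive.ofMul γ) = prim ⇑f ((γ : SL(2, ℤ)) • z) - prim ⇑f z := by
  rw [tgePeriodHom, IsEquivariantPrimitive.periodHom_apply,
    IsEquivariantPrimitive.sub_eq_period]

theorem tgePeriodHom_add (f g : CuspForm Γ 2) :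
    tgePeriodHom Γ (f + g) = tgePeriodHom Γ f + tgePeriodHom Γ g := by
  refine AddMonoidHom.ext fun γ => ?_
  obtain ⟨γ, rfl⟩ := Additive.ofMul.surjective γ
  rw [AddMonoidHom.add_apply, tgePeriodHom_apply Γ _ γ UpperHalfPlane.I,
    tgePeriodHom_apply Γ _ γ UpperHalfPlane.I, tgePeriodHom_apply Γ _ γ UpperHalfPlane.I,
    FunLike.coe_add, prim_add (tge_isCuspidalAll Γ f) (tge_isCuspidalAll Γ g)]
  simp only [Pi.add_apply]
  ring

theorem tgePeriodHom_smul (c : ℂ) (f : CuspForm Γ 2) :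
    tgePeriodHom Γ (c • f) = c • tgePeriodHom Γ f := by
  refine AddMonoidHom.ext fun γ => ?_
  obtain ⟨γ, rfl⟩ := Additive.ofMul.surjective γ
  rw [AddMonoidHom.smul_apply, tgePeriodHom_apply Γ _ γ UpperHalfPlane.I,
    tgePeriodHom_apply Γ _ γ UpperHalfPlane.I, FunLike.coe_smul,
    prim_smul (tge_isCuspidalAll Γ f)]
  simp only [Pi.smul_apply, smul_eq_mul]
  ring

/-- the period map as a linear map to `Hom(Γ, ℂ)` -/
def tgePeriodLin : CuspForm Γ 2 →ₗ[ℂ] (Additive Γ →+ ℂ) where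
  toFun := tgePeriodHom Γ
  map_add' := tgePeriodHom_add Γ
  map_smul' c f := by rw [tgePeriodHom_smul]; rfl

@[simp] theorem tgePeriodLin_apply (f : CuspForm Γ 2) : tgePeriodLin Γ f = tgePeriodHom Γ f := rfl

/-- periods of parabolic elements vanish -/
theorem tgePeriodHom_mem_parabolicHoms (f : CuspForm Γ 2) :
    tgePeriodHom Γ f ∈ parabolicHoms ℂ Γ ℂ := by
  rw [mem_parabolicHoms_iff]
  intro γ hγ
  obtain ⟨δ, n, hδ⟩ := exists_conj_smul_eq_T_zpow (γ : SL(2, ℤ)) hγ
  obtain ⟨L, hL⟩ := tendsto_prim_smul (tge_isCuspidalAll Γ f) δ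
  have hconst : ∀ w : ℍ, tgePeriodHom Γ f (Additive.ofMul γ) =
      prim ⇑f (δ • (ModularGroup.T ^ n • w)) - prim ⇑f (δ • w) := by
    intro w
    rw [tgePeriodHom_apply Γ f γ (δ • w), hδ w]
  have hT : Tendsto (fun w : ℍ => ModularGroup.T ^ n • w) atImInfty atImInfty := by
    rw [atImInfty, tendsto_comap_iff]
    have : (UpperHalfPlane.im ∘ fun w : ℍ => ModularGroup.T ^ n • w) = UpperHalfPlane.im := by
      ext w; exact ModularGroup.im_T_zpow_smul w n
    rw [this]
    exact tendsto_comap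
  have h1 : Tendsto (fun w : ℍ => prim ⇑f (δ • (ModularGroup.T ^ n • w)) - prim ⇑f (δ • w))
      atImInfty (𝓝 (L - L)) := (hL.comp hT).sub hL
  have h2 : Tendsto (fun _ : ℍ => tgePeriodHom Γ f (Additive.ofMul γ)) atImInfty
      (𝓝 (L - L)) := h1.congr fun w => (hconst w).symm
  have := tendsto_nhds_unique h2 tendsto_const_nhds
  rw [sub_self] at this
  exact this.symm

/-- **(E1)** the period map `S₂(Γ) → Hom_par(Γ, ℂ)` -/
def tgePeriod : CuspForm Γ 2 →ₗ[ℂ] ↥(parabolicHoms ℂ Γ ℂ) :=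
  (tgePeriodLin Γ).codRestrict _ (tgePeriodHom_mem_parabolicHoms Γ)

@[simp] theorem tgePeriod_coe (f : CuspForm Γ 2) :
    ((tgePeriod Γ f : ↥(parabolicHoms ℂ Γ ℂ)) : Additive Γ →+ ℂ) = tgePeriodHom Γ f := rfl

/-! ### The general comparison -/

/-- if the primitive of `g` is, up to a constant, the sum of the translates of the primitive of `f`
under a coset system, then the period homomorphism of `g` is the abstract Hecke operator applied to
that of `f` -/
theorem tge_period_of_prim {ι : Type} [Fintype ι] (S : tdmCosetSys Γ ι)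
    (f g : CuspForm Γ 2) (C : ℂ)
    (hprim : ∀ τ : ℍ, prim ⇑g τ = (∑ i, prim ⇑f (tdmAct (S.rep i) (S.det_pos i) τ)) + C) :
    tgePeriodHom Γ g = S.hom ℂ (tgePeriodHom Γ f) := by
  refine AddMonoidHom.ext fun δ' => ?_
  obtain ⟨δ, rfl⟩ : ∃ δ : Γ, Additive.ofMul δ = δ' := ⟨Additive.toMul δ', rfl⟩
  rw [tgePeriodHom_apply Γ g δ UpperHalfPlane.I, hprim, hprim, S.hom_apply,
    add_sub_add_right_eq_sub, ← Finset.sum_sub_distrib]
  have h1 : ∀ i, prim ⇑f (tdmAct (S.rep i) (S.det_pos i) ((δ : SL(2, ℤ)) • UpperHalfPlane.I))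
      - prim ⇑f (tdmAct (S.rep i) (S.det_pos i) UpperHalfPlane.I)
      = tgePeriodHom Γ f (Additive.ofMul (S.eps δ i))
        + (prim ⇑f (tdmAct (S.rep (S.sigma δ i)) (S.det_pos _) UpperHalfPlane.I)
          - prim ⇑f (tdmAct (S.rep i) (S.det_pos i) UpperHalfPlane.I)) := by
    intro i
    rw [S.act_smul, tgePeriodHom_apply Γ f (S.eps δ i)
      (tdmAct (S.rep (S.sigma δ i)) (S.det_pos _) UpperHalfPlane.I)]
    ring
  rw [Finset.sum_congr rfl fun i _ => h1 i, Finset.sum_add_distrib, Finset.sum_sub_distrib,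
    Equiv.sum_comp (S.sigma δ)
      (fun i => prim ⇑f (tdmAct (S.rep i) (S.det_pos i) UpperHalfPlane.I)),
    sub_self, add_zero]

end

/-! ### Function level: primitives of `U_r f` and of `f ∣ diag(r, 1)` -/

noncomputable section

theorem tge_hasDerivAt_sum_aff {r : ℕ} (hr0 : r ≠ 0) {f : ℍ → ℂ} (hf : IsCuspidalAll 2 f)
    (τ : ℍ) :
    HasDerivAt ((fun w : ℍ => ∑ b : Fin r,
        prim f (tdmAct !![1, ((b : ℕ) : ℤ); 0, (r : ℤ)] (tdm_aff_det_pos hr0 _) w)) ∘ ofComplex)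
      (ModularForm.heckeU 2 r f τ) ↑τ := by
  have h : ∀ b : Fin r, HasDerivAt
      ((fun w : ℍ => prim f (tdmAct !![1, ((b : ℕ) : ℤ); 0, (r : ℤ)] (tdm_aff_det_pos hr0 _) w))
        ∘ ofComplex)
      ((((1 : ℤ) : ℂ) / ((r : ℤ) : ℂ)) * f (ModularForm.heckeMatrix r b • τ)) ↑τ := by
    intro b
    have := tdm_hasDerivAt_comp_upper 1 ((b : ℕ) : ℤ) (r : ℤ) (tdm_aff_det_pos hr0 _)
      (hasDerivAt_prim hf) τ
    rwa [tdmAct_aff_eq hr0] at this
  have hsum := HasDerivAt.sum (u := Finset.univ) fun b _ => h b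
  have e1 : (∑ b : Fin r, (fun w : ℍ => prim f
      (tdmAct !![1, ((b : ℕ) : ℤ); 0, (r : ℤ)] (tdm_aff_det_pos hr0 _) w)) ∘ ofComplex)
      = ((fun w : ℍ => ∑ b : Fin r,
        prim f (tdmAct !![1, ((b : ℕ) : ℤ); 0, (r : ℤ)] (tdm_aff_det_pos hr0 _) w)) ∘ ofComplex) := by
    funext z
    simp [Finset.sum_apply]
  rw [e1] at hsum
  refine hsum.congr_deriv ?_
  rw [ModularForm.heckeU_apply 2 hr0,
    ← Fin.sum_univ_eq_sum_range (fun j => f (ModularForm.heckeMatrix r j • τ)), Finset.mul_sum]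
  refine Finset.sum_congr rfl fun b _ => ?_
  push_cast
  rw [one_div]

theorem tge_hasDerivAt_diag {r : ℕ} (hr0 : r ≠ 0) {f : ℍ → ℂ} (hf : IsCuspidalAll 2 f) (τ : ℍ) :
    HasDerivAt ((fun w : ℍ => prim f (tdmAct !![(r : ℤ), 0; 0, 1] (tdm_diag_det_pos hr0) w))
        ∘ ofComplex)
      ((f ∣[(2 : ℤ)] ModularForm.heckeDiagMatrix r) τ) ↑τ := by
  have := tdm_hasDerivAt_comp_upper (r : ℤ) 0 1 (tdm_diag_det_pos hr0) (hasDerivAt_prim hf) τ
  rw [tdmAct_diag_eq hr0] at this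
  refine this.congr_deriv ?_
  rw [ModularForm.slash_heckeDiagMatrix_apply 2 hr0]
  norm_num

end

end Fermat.Agent.T1G
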