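/-
TG-ES (E2): the involution `φ ↦ φ ∘ J` (`J` = conjugation by `diag(1, -1)`) on `Hom(Γ, A)` for a
`J`-stable finite index subgroup `Γ ≤ SL(2, ℤ)`, the conjugate cusp form, and the injectivity of
the Eichler–Shimura pairing `(f, g) ↦ (1 + J) P_f + (1 - J) P_g`.
-/
import Mathlib
import Fermat.Agent.Lib.ES.ConjForm
import Fermat.Agent.Lib.ES.ImaginaryPeriods
import Fermat.Agent.Lib.T1G.ES.Period

set_option autoImplicit false

namespace Fermat.Agent.T1G

open UpperHalfPlane hiding I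
open Complex Derivative Filter Function CongruenceSubgroup Matrix
open scoped Manifold Topology Real ModularForm MatrixGroups ComplexConjugate
open Fermat.Agent.S22Lib Fermat.Agent.ES Fermat.Agent.T1 ModularCurve ModularCurve.Period

noncomputable section

/-! ### `J`-stable subgroups -/

/-- `Γ` is stable under conjugation by `diag(1, -1)` -/
class TgeJStable (Γ : Subgroup SL(2, ℤ)) : Prop where
  jConj_mem : ∀ γ ∈ Γ, jConjSL γ ∈ Γ

instance tge_jStable_Gamma0 (N : ℕ) : TgeJStable (Gamma0 N) :=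
  ⟨fun _ hγ => jConjSL_mem_Gamma0 hγ⟩

instance tge_jStable_Gamma1 (N : ℕ) : TgeJStable (Gamma1 N) := by
  refine ⟨fun γ hγ => ?_⟩
  rw [Gamma1_mem] at hγ ⊢
  obtain ⟨h1, h2, h3⟩ := hγ
  refine ⟨?_, ?_, ?_⟩
  · rw [jConjSL_coe, jConjMat_apply_zero_zero]; exact h1
  · rw [jConjSL_coe, jConjMat_apply_one_one]; exact h2
  · rw [jConjSL_coe, jConjMat_apply_one_zero]; push_cast; rw [h3, neg_zero]

variable (Γ : Subgroup SL(2, ℤ)) [TgeJStable Γ]

/-- conjugation by `diag(1, -1)` on `Γ` -/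
def tgeJ : Γ →* Γ where
  toFun γ := ⟨jConjSL ↑γ, TgeJStable.jConj_mem _ γ.2⟩
  map_one' := by
    apply Subtype.ext
    show jConjSL ↑(1 : Γ) = _
    rw [Subgroup.coe_one, map_one]
  map_mul' γ δ := by
    apply Subtype.ext
    show jConjSL ↑(γ * δ) = _
    rw [Subgroup.coe_mul, map_mul]; rfl

@[simp] theorem tgeJ_coe (γ : Γ) : ((tgeJ Γ γ : Γ) : SL(2, ℤ)) = jConjSL ↑γ := rfl

theorem tgeJ_tgeJ (γ : Γ) : tgeJ Γ (tgeJ Γ γ) = γ := by
  apply Subtype.ext; rw [tgeJ_coe, tgeJ_coe, jConjSL_jConjSL]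

theorem tge_jConjMat_coe (γ : Γ) :
    jConjMat ((γ : SL(2, ℤ)) : Matrix (Fin 2) (Fin 2) ℤ)
      = ((tgeJ Γ γ : SL(2, ℤ)) : Matrix (Fin 2) (Fin 2) ℤ) := rfl

/-! ### The involution on `Hom(Γ, A)` -/

section Inv

variable (R : Type*) [Semiring R] (A : Type*) [AddCommGroup A] [Module R A]

/-- the involution `φ ↦ φ ∘ J` on `Hom(Γ, A)` -/
def tgeInv : (Additive Γ →+ A) →ₗ[R] (Additive Γ →+ A) where
  toFun ψ := ψ.comp (MonoidHom.toAdditive (tgeJ Γ))
  map_add' _ _ := rfl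
  map_smul' _ _ := rfl

@[simp] theorem tgeInv_apply (ψ : Additive Γ →+ A) (γ : Additive Γ) :
    (tgeInv Γ R A ψ) γ = ψ (Additive.ofMul (tgeJ Γ (Additive.toMul γ))) := rfl

theorem tgeInv_tgeInv (ψ : Additive Γ →+ A) : tgeInv Γ R A (tgeInv Γ R A ψ) = ψ := by
  refine AddMonoidHom.ext fun γ => ?_
  show ψ (Additive.ofMul (tgeJ Γ (tgeJ Γ (Additive.toMul γ)))) = ψ γ
  rw [tgeJ_tgeJ]; rfl

theorem tgeInv_mem_parabolicHoms {ψ : Additive Γ →+ A} (hψ : ψ ∈ parabolicHoms R Γ A) :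
    tgeInv Γ R A ψ ∈ parabolicHoms R Γ A := by
  rw [mem_parabolicHoms_iff] at hψ ⊢
  intro γ hγ
  refine hψ (tgeJ Γ γ) ?_
  have htr : (((tgeJ Γ γ : Γ) : SL(2, ℤ)) : Matrix (Fin 2) (Fin 2) ℤ).trace
      = (((γ : Γ) : SL(2, ℤ)) : Matrix (Fin 2) (Fin 2) ℤ).trace := by
    rw [tgeJ_coe, jConjSL_coe, jConjMat_trace]
  rw [htr]; exact hγ

/-- the involution `φ ↦ φ ∘ J` on the parabolic homomorphisms -/
def tgeW : ↥(parabolicHoms R Γ A) →ₗ[R] ↥(parabolicHoms R Γ A) :=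
  (tgeInv Γ R A).restrict fun _ hφ => tgeInv_mem_parabolicHoms Γ R A hφ

@[simp] theorem tgeW_coe (φ : ↥(parabolicHoms R Γ A)) :
    ((tgeW Γ R A φ : ↥(parabolicHoms R Γ A)) : Additive Γ →+ A) = tgeInv Γ R A φ := rfl

theorem tgeW_tgeW (φ : ↥(parabolicHoms R Γ A)) : tgeW Γ R A (tgeW Γ R A φ) = φ := by
  apply Subtype.ext
  rw [tgeW_coe, tgeW_coe, tgeInv_tgeInv]

end Inv

/-! ### The conjugate cusp form -/

open ConjAct Pointwise in
theorem tge_conjAct_epsGL :
    toConjAct epsGL⁻¹ • (Γ : Subgroup (GL (Fin 2) ℝ)) = (Γ : Subgroup (GL (Fin 2) ℝ)) := by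
  ext x
  rw [map_inv, Subgroup.mem_inv_pointwise_smul_iff, toConjAct_smul]
  constructor
  · rintro ⟨γ, hγ, hx⟩
    refine ⟨jConjSL γ, TgeJStable.jConj_mem _ hγ, ?_⟩
    have h1 : x = epsGL⁻¹ * (Matrix.SpecialLinearGroup.mapGL ℝ γ) * epsGL := by
      rw [hx]; group
    have h2 := epsGL_mul_mapGL (jConjSL γ)
    rw [jConjSL_jConjSL] at h2
    rw [h1, epsGL_inv, mul_assoc, ← h2, ← mul_assoc, epsGL_mul_self, one_mul]
  · rintro ⟨γ, hγ, rfl⟩
    refine ⟨jConjSL γ, TgeJStable.jConj_mem _ hγ, ?_⟩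
    rw [epsGL_mul_mapGL, mul_assoc, mul_inv_cancel, mul_one]

/-- the conjugate cusp form `z ↦ conj (f (-conj z))` -/
def tgeConjForm (f : CuspForm Γ 2) : CuspForm Γ 2 :=
  cuspFormCongr (tge_conjAct_epsGL Γ) 2 (CuspForm.translate f epsGL)

theorem coe_tgeConjForm (f : CuspForm Γ 2) : ⇑(tgeConjForm Γ f) = cj ⇑f := by
  rw [tgeConjForm, coe_cuspFormCongr]
  exact slash_epsGL_eq_cj 2 _

theorem tgeConjForm_eq_zero_iff (f : CuspForm Γ 2) : tgeConjForm Γ f = 0 ↔ f = 0 := by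
  constructor
  · intro h
    have h1 : cj ⇑f = 0 := by
      rw [← coe_tgeConjForm, h]; rfl
    have h2 : ⇑f = 0 := by
      rw [← cj_cj ⇑f, h1]
      ext z
      simp
    exact DFunLike.coe_injective h2
  · rintro rfl
    apply DFunLike.coe_injective
    rw [coe_tgeConjForm]
    ext z
    simp

variable [Γ.FiniteIndex]

/-- the primitive of the conjugate form -/
theorem tge_prim_conjForm (f : CuspForm Γ 2) :
    prim ⇑(tgeConjForm Γ f) = -cj (prim ⇑f) := by
  have hf := tge_isCuspidalAll Γ f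
  symm
  refine eq_prim_of_hasDerivAt (tge_isCuspidalAll Γ (tgeConjForm Γ f)) ?_ ?_
  · intro τ
    rw [coe_tgeConjForm]
    exact hasDerivAt_neg_cj (hasDerivAt_prim hf) τ
  · exact tendsto_neg_cj (tendsto_prim_atImInfty hf)

/-- periods of the conjugate form -/
theorem tgePeriodHom_conjForm (f : CuspForm Γ 2) (γ : Γ) :
    tgePeriodHom Γ (tgeConjForm Γ f) (Additive.ofMul γ) =
      -conj (tgePeriodHom Γ f (Additive.ofMul (tgeJ Γ γ))) := by
  rw [tgePeriodHom_apply Γ _ γ UpperHalfPlane.I,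
    tgePeriodHom_apply Γ f (tgeJ Γ γ) (epsGL • UpperHalfPlane.I), tge_prim_conjForm]
  simp only [Pi.neg_apply, cj_apply, tgeJ_coe, epsGL_smul_SL_smul, map_sub]
  ring

/-! ### Injectivity -/

omit [TgeJStable Γ] in
/-- a weight two cusp form all of whose periods are purely imaginary is zero -/
theorem tge_eq_zero_of_re_period_eq_zero (f : CuspForm Γ 2)
    (h : ∀ γ : Γ, (tgePeriodHom Γ f (Additive.ofMul γ)).re = 0) : f = 0 := by
  have hf := tge_isCuspidalAll Γ f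
  set A := prim ⇑f with hA
  obtain ⟨c₀, hc₀⟩ := exists_const_of_norm_invariant Γ (G := fun z => cexp (A z))
    (by
      intro γ hγ z
      have := tgePeriodHom_apply Γ f ⟨γ, hγ⟩ z
      have hre : (A (γ • z)).re = (A z).re := by
        have h1 : A (γ • z) = A z + tgePeriodHom Γ f (Additive.ofMul ⟨γ, hγ⟩) := by
          rw [this]; ring
        rw [h1, add_re, h ⟨γ, hγ⟩, add_zero]
      simp only [Complex.norm_exp, hre])
    (by
      intro δ
      obtain ⟨c, hc⟩ := exists_const_prim_smul_eq hf δ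
      obtain ⟨p, hp, g, hg, hgz⟩ := exists_disc_function_prim (hf δ)
      refine ⟨p, hp, fun q => cexp (g q + c), (hg.add_const c).cexp, fun z => ?_⟩
      simp only [hgz, hA, hc])
  have hzero : ∀ τ : ℍ, f τ = 0 := by
    intro τ
    have h1 : HasDerivAt (A ∘ ofComplex) (f τ) ↑τ := hasDerivAt_prim hf τ
    have h2 : HasDerivAt (fun w => cexp ((A ∘ ofComplex) w)) (cexp ((A ∘ ofComplex) ↑τ) * f τ) ↑τ :=
      h1.cexp
    have h3 : (fun w => cexp ((A ∘ ofComplex) w)) =ᶠ[𝓝 (τ : ℂ)] fun _ => c₀ := by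
      filter_upwards [isOpen_upperHalfPlaneSet.mem_nhds τ.im_pos] with w hw
      simp only [Function.comp_apply]
      exact hc₀ (ofComplex w)
    have h4 : HasDerivAt (fun w => cexp ((A ∘ ofComplex) w)) 0 ↑τ :=
      (hasDerivAt_const (τ : ℂ) c₀).congr_of_eventuallyEq h3
    have h5 := h2.unique h4
    rcases mul_eq_zero.mp h5 with h6 | h6
    · exact absurd h6 (Complex.exp_ne_zero _)
    · exact h6
  ext τ
  simpa using hzero τ

omit [TgeJStable Γ] in
/-- key step: if `P(a) = conj ∘ P(b)` then `a = b = 0` -/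
theorem tge_eq_zero_of_period_eq_conj (a b : CuspForm Γ 2)
    (h : ∀ γ : Γ, tgePeriodHom Γ a (Additive.ofMul γ) =
      conj (tgePeriodHom Γ b (Additive.ofMul γ))) : a = 0 ∧ b = 0 := by
  have h1 : a - b = 0 := by
    apply tge_eq_zero_of_re_period_eq_zero Γ
    intro γ
    have : tgePeriodHom Γ (a - b) = tgePeriodHom Γ a - tgePeriodHom Γ b := by
      rw [← tgePeriodLin_apply, map_sub]; rfl
    rw [this, AddMonoidHom.sub_apply, h γ]
    simp
  have h2 : (I : ℂ) • (a + b) = 0 := by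
    apply tge_eq_zero_of_re_period_eq_zero Γ
    intro γ
    have : tgePeriodHom Γ ((I : ℂ) • (a + b)) = (I : ℂ) • (tgePeriodHom Γ a + tgePeriodHom Γ b) := by
      rw [← tgePeriodLin_apply, map_smul, map_add]; rfl
    rw [this, AddMonoidHom.smul_apply, AddMonoidHom.add_apply, h γ]
    simp
  have h3 : a + b = 0 := by
    rcases smul_eq_zero.mp h2 with h | h
    · exact absurd h I_ne_zero
    · exact h
  have ha : a = 0 := by
    have : (2 : ℂ) • a = 0 := by
      have : (2 : ℂ) • a = (a - b) + (a + b) := by rw [two_smul]; abel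
      rw [this, h1, h3, add_zero]
    rcases smul_eq_zero.mp this with h | h
    · exact absurd h two_ne_zero
    · exact h
  refine ⟨ha, ?_⟩
  rw [ha, zero_add] at h3
  exact h3

/-- the Eichler–Shimura pairing `(f, g) ↦ (1 + J) P_f + (1 - J) P_g` with values in `Hom(Γ, ℂ)` -/
def tgePairHom : (CuspForm Γ 2 × CuspForm Γ 2) →ₗ[ℂ] (Additive Γ →+ ℂ) :=
  LinearMap.coprod
    ((LinearMap.id + tgeInv Γ ℂ ℂ) ∘ₗ tgePeriodLin Γ)
    ((LinearMap.id - tgeInv Γ ℂ ℂ) ∘ₗ tgePeriodLin Γ)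

theorem tgePairHom_apply (f g : CuspForm Γ 2) :
    tgePairHom Γ (f, g)
      = (tgePeriodHom Γ f + tgeInv Γ ℂ ℂ (tgePeriodHom Γ f))
        + (tgePeriodHom Γ g - tgeInv Γ ℂ ℂ (tgePeriodHom Γ g)) := by
  simp [tgePairHom, LinearMap.coprod_apply]

theorem tgePairHom_mem (x : CuspForm Γ 2 × CuspForm Γ 2) :
    tgePairHom Γ x ∈ parabolicHoms ℂ Γ ℂ := by
  obtain ⟨f, g⟩ := x
  rw [tgePairHom_apply]
  have hf := tgePeriodHom_mem_parabolicHoms Γ f
  have hg := tgePeriodHom_mem_parabolicHoms Γ g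
  exact Submodule.add_mem _ (Submodule.add_mem _ hf (tgeInv_mem_parabolicHoms Γ ℂ ℂ hf))
    (Submodule.sub_mem _ hg (tgeInv_mem_parabolicHoms Γ ℂ ℂ hg))

/-- **(E2)** the pairing is injective -/
theorem tgePairHom_injective : Function.Injective (tgePairHom Γ) := by
  rw [injective_iff_map_eq_zero]
  rintro ⟨f, g⟩ h
  rw [tgePairHom_apply] at h
  have hγ : ∀ γ : Γ, tgePeriodHom Γ (f + g) (Additive.ofMul γ) =
      conj (tgePeriodHom Γ (tgeConjForm Γ (f - g)) (Additive.ofMul γ)) := by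
    intro γ
    have h1 := DFunLike.congr_fun h (Additive.ofMul γ)
    simp only [AddMonoidHom.add_apply, AddMonoidHom.sub_apply,
      tgeInv_apply, toMul_ofMul, AddMonoidHom.zero_apply] at h1
    have e1 : tgePeriodHom Γ (f + g) = tgePeriodHom Γ f + tgePeriodHom Γ g :=
      tgePeriodHom_add Γ f g
    have e2 : tgePeriodHom Γ (f - g) = tgePeriodHom Γ f - tgePeriodHom Γ g := by
      rw [← tgePeriodLin_apply, map_sub]; rfl
    rw [tgePeriodHom_conjForm, map_neg, Complex.conj_conj, e1, e2, AddMonoidHom.add_apply,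
      AddMonoidHom.sub_apply]
    linear_combination h1
  obtain ⟨h1, h2⟩ := tge_eq_zero_of_period_eq_conj Γ _ _ hγ
  rw [tgeConjForm_eq_zero_iff] at h2
  have hf : f = 0 := by
    have : (2 : ℂ) • f = 0 := by
      have : (2 : ℂ) • f = (f + g) + (f - g) := by rw [two_smul]; abel
      rw [this, h1, h2, add_zero]
    rcases smul_eq_zero.mp this with h | h
    · exact absurd h two_ne_zero
    · exact h
  have hg : g = 0 := by
    rw [hf, zero_add] at h1
    exact h1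
  rw [hf, hg]
  rfl

/-- **(E2)** the Eichler–Shimura pairing `S₂(Γ) × S₂(Γ) → Hom_par(Γ, ℂ)` -/
def tgePair : (CuspForm Γ 2 × CuspForm Γ 2) →ₗ[ℂ] ↥(parabolicHoms ℂ Γ ℂ) :=
  (tgePairHom Γ).codRestrict _ (tgePairHom_mem Γ)

@[simp] theorem tgePair_coe (x : CuspForm Γ 2 × CuspForm Γ 2) :
    ((tgePair Γ x : ↥(parabolicHoms ℂ Γ ℂ)) : Additive Γ →+ ℂ) = tgePairHom Γ x := rfl

theorem tgePair_injective : Function.Injective (tgePair Γ) := fun _ _ h =>
  tgePairHom_injective Γ (congrArg Subtype.val h)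

/-- the pairing intertwines `(f, g) ↦ (f, -g)` with the involution `φ ↦ φ ∘ J` -/
theorem tgeW_tgePair (f g : CuspForm Γ 2) :
    tgeW Γ ℂ ℂ (tgePair Γ (f, g)) = tgePair Γ (f, -g) := by
  apply Subtype.ext
  rw [tgeW_coe, tgePair_coe, tgePair_coe, tgePairHom_apply, tgePairHom_apply]
  have hneg : tgePeriodHom Γ (-g) = -tgePeriodHom Γ g := by
    have := tgePeriodHom_smul Γ (-1 : ℂ) g
    simpa using this
  rw [hneg, map_add, map_add, map_sub]
  simp only [tgeInv_tgeInv, map_neg]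
  abel

end

end Fermat.Agent.T1G
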