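/-
TG-ES (E5), group theory: the coset systems of `T_p` (`p ∤ M`), `U_r` (`r ∣ M`) and `⟨d⟩` for
`Γ₁(M)`, and their compatibility with the involution `J`.
-/
import Mathlib
import Fermat.Agent.Lib.DS.Hecke.Forms
import Fermat.Agent.Lib.T1.Mono.Coset
import Fermat.Agent.Lib.T1G.ES.Conj

set_option autoImplicit false

namespace Fermat.Agent.T1G

open Matrix MatrixGroups CongruenceSubgroup ModularCurve ModularCurve.Period
open Fermat.Agent.DS Fermat.Agent.T1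

/-! ### The four matrix identities, with both lower entries -/

theorem tgm_aff_mul_diag {r : ℕ} (D : Matrix (Fin 2) (Fin 2) ℤ) (hD : D.det = 1) (j : ℤ)
    (h : (r : ℤ) ∣ D 0 0 + j * D 1 0) :
    ∃ E : SL(2, ℤ), !![1, j; 0, (r : ℤ)] * D = (E : Matrix (Fin 2) (Fin 2) ℤ) * !![(r : ℤ), 0; 0, 1]
      ∧ E 1 0 = D 1 0 ∧ E 1 1 = r * D 1 1 := by
  obtain ⟨k, hk⟩ := h
  rw [Matrix.det_fin_two] at hD
  have hdet : (!![k, D 0 1 + j * D 1 1; D 1 0, r * D 1 1] : Matrix (Fin 2) (Fin 2) ℤ).det = 1 := by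
    rw [Matrix.det_fin_two_of]; linear_combination hD - D 1 1 * hk
  refine ⟨⟨_, hdet⟩, ?_, rfl, rfl⟩
  ext a b
  fin_cases a <;> fin_cases b <;> simp [Matrix.mul_apply, Fin.sum_univ_two] <;>
    first | ring1 | linear_combination hk

theorem tgm_aff_mul_aff {r : ℕ} (D : Matrix (Fin 2) (Fin 2) ℤ) (hD : D.det = 1) (j u : ℤ)
    (h : (r : ℤ) ∣ (D 0 1 + j * D 1 1) - u * (D 0 0 + j * D 1 0)) :
    ∃ E : SL(2, ℤ), !![1, j; 0, (r : ℤ)] * D = (E : Matrix (Fin 2) (Fin 2) ℤ) * !![1, u; 0, (r : ℤ)]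
      ∧ E 1 0 = r * D 1 0 ∧ E 1 1 = D 1 1 - u * D 1 0 := by
  obtain ⟨k, hk⟩ := h
  rw [Matrix.det_fin_two] at hD
  have hdet : (!![D 0 0 + j * D 1 0, k; r * D 1 0, D 1 1 - u * D 1 0] :
      Matrix (Fin 2) (Fin 2) ℤ).det = 1 := by
    rw [Matrix.det_fin_two_of]; linear_combination hD + D 1 0 * hk
  refine ⟨⟨_, hdet⟩, ?_, rfl, rfl⟩
  ext a b
  fin_cases a <;> fin_cases b <;> simp [Matrix.mul_apply, Fin.sum_univ_two] <;>
    first | ring1 | linear_combination hk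

theorem tgm_diag_mul_diag {r : ℕ} (D : Matrix (Fin 2) (Fin 2) ℤ) (hD : D.det = 1)
    (h : (r : ℤ) ∣ D 1 0) :
    ∃ E : SL(2, ℤ), !![(r : ℤ), 0; 0, 1] * D = (E : Matrix (Fin 2) (Fin 2) ℤ) * !![(r : ℤ), 0; 0, 1]
      ∧ r * E 1 0 = D 1 0 ∧ E 1 1 = D 1 1 := by
  obtain ⟨k, hk⟩ := h
  rw [Matrix.det_fin_two] at hD
  have hdet : (!![D 0 0, r * D 0 1; k, D 1 1] : Matrix (Fin 2) (Fin 2) ℤ).det = 1 := by
    rw [Matrix.det_fin_two_of]; linear_combination hD + D 0 1 * hk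
  refine ⟨⟨_, hdet⟩, ?_, hk.symm, rfl⟩
  ext a b
  fin_cases a <;> fin_cases b <;> simp [Matrix.mul_apply, Fin.sum_univ_two] <;>
    first | ring1 | linear_combination hk

theorem tgm_diag_mul_aff {r : ℕ} (D : Matrix (Fin 2) (Fin 2) ℤ) (hD : D.det = 1) (u : ℤ)
    (h : (r : ℤ) ∣ D 1 1 - u * D 1 0) :
    ∃ E : SL(2, ℤ), !![(r : ℤ), 0; 0, 1] * D = (E : Matrix (Fin 2) (Fin 2) ℤ) * !![1, u; 0, (r : ℤ)]
      ∧ E 1 0 = D 1 0 ∧ r * E 1 1 = D 1 1 - u * D 1 0 := by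
  obtain ⟨k, hk⟩ := h
  rw [Matrix.det_fin_two] at hD
  have hdet : (!![r * D 0 0, D 0 1 - u * D 0 0; D 1 0, k] : Matrix (Fin 2) (Fin 2) ℤ).det = 1 := by
    rw [Matrix.det_fin_two_of]; linear_combination hD - D 0 0 * hk
  refine ⟨⟨_, hdet⟩, ?_, rfl, hk.symm⟩
  ext a b
  fin_cases a <;> fin_cases b <;> simp [Matrix.mul_apply, Fin.sum_univ_two] <;>
    first | ring1 | linear_combination hk

/-! ### Membership in `Γ₁(M)` -/

theorem tgm_Gamma1_data {M : ℕ} (δ : Gamma1 M) :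
    ((δ : SL(2, ℤ)) : Matrix (Fin 2) (Fin 2) ℤ).det = 1 ∧
      ((((δ : SL(2, ℤ)) : Matrix (Fin 2) (Fin 2) ℤ) 1 0 : ℤ) : ZMod M) = 0 ∧
      ((((δ : SL(2, ℤ)) : Matrix (Fin 2) (Fin 2) ℤ) 1 1 : ℤ) : ZMod M) = 1 := by
  have h := (Gamma1_mem M (δ : SL(2, ℤ))).mp δ.2
  exact ⟨(δ : SL(2, ℤ)).2, h.2.2, h.2.1⟩

theorem tgm_mem_Gamma1_of {M : ℕ} {E : SL(2, ℤ)} (h0 : ((E 1 0 : ℤ) : ZMod M) = 0)
    (h1 : ((E 1 1 : ℤ) : ZMod M) = 1) : E ∈ Gamma1 M :=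
  dsh_mem_Gamma1_iff.mpr ⟨Gamma0_mem.mpr h0, h1⟩

theorem tgm_mem_Gamma0_of {M : ℕ} {E : SL(2, ℤ)} (h0 : ((E 1 0 : ℤ) : ZMod M) = 0) :
    E ∈ Gamma0 M := Gamma0_mem.mpr h0

/-! ### The coset system of `T_p` -/

section SysT

variable (M : ℕ) [NeZero M] {p : ℕ} (hp : p.Prime) (hpM : ¬ p ∣ M)

/-- the chosen element `γ_p ∈ Γ₀(M)` with lower right entry `≡ p` -/
noncomputable def tgmGammaP : SL(2, ℤ) := dshGammaU M (dshUnit M hp hpM)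

theorem tgmGammaP_mem : tgmGammaP M hp hpM ∈ Gamma0 M := dshGammaU_mem M _

theorem dshD_tgmGammaP : dshD M (tgmGammaP M hp hpM) = (p : ZMod M) := by
  rw [tgmGammaP, dshD_dshGammaU, coe_dshUnit]

omit [NeZero M] in
include hp hpM in
theorem tgm_isUnit_cast : IsUnit (p : ZMod M) := by
  rw [← coe_dshUnit M hp hpM]; exact Units.isUnit _

/-- the representatives `γ_p * diag(p, 1)` and `[[1, b], [0, p]]` (`b < p`) of `T_p` on `Γ₁(M)` -/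
noncomputable def tgmRepT : Option (Fin p) → Matrix (Fin 2) (Fin 2) ℤ
  | none => (tgmGammaP M hp hpM : Matrix (Fin 2) (Fin 2) ℤ) * !![(p : ℤ), 0; 0, 1]
  | some b => !![1, ((b : ℕ) : ℤ); 0, (p : ℤ)]

theorem tgmRepT_det (i : Option (Fin p)) : (tgmRepT M hp hpM i).det = p := by
  cases i
  · rw [tgmRepT, Matrix.det_mul, (tgmGammaP M hp hpM).2]
    simp [Matrix.det_fin_two_of]
  · simp [tgmRepT, Matrix.det_fin_two_of]

theorem tgm_SL_mul_assoc (a b : SL(2, ℤ)) (X : Matrix (Fin 2) (Fin 2) ℤ) :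
    ((a * b : SL(2, ℤ)) : Matrix (Fin 2) (Fin 2) ℤ) * X
      = (a : Matrix (Fin 2) (Fin 2) ℤ) * ((b : Matrix (Fin 2) (Fin 2) ℤ) * X) := by
  rw [Matrix.SpecialLinearGroup.coe_mul, Matrix.mul_assoc]

theorem tgm_SL_inv_mul_cancel (a : SL(2, ℤ)) (X : Matrix (Fin 2) (Fin 2) ℤ) :
    ((a⁻¹ : SL(2, ℤ)) : Matrix (Fin 2) (Fin 2) ℤ) * ((a : Matrix (Fin 2) (Fin 2) ℤ) * X) = X := by
  rw [← Matrix.mul_assoc, ← Matrix.SpecialLinearGroup.coe_mul, inv_mul_cancel,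
    Matrix.SpecialLinearGroup.coe_one, Matrix.one_mul]

theorem tgm_SL_inv_mul_self (a : SL(2, ℤ)) :
    ((a⁻¹ : SL(2, ℤ)) : Matrix (Fin 2) (Fin 2) ℤ) * (a : Matrix (Fin 2) (Fin 2) ℤ) = 1 := by
  rw [← Matrix.SpecialLinearGroup.coe_mul, inv_mul_cancel, Matrix.SpecialLinearGroup.coe_one]

theorem tgmRepT_exists (δ : Gamma1 M) (i : Option (Fin p)) :
    ∃ j : Option (Fin p), ∃ ε : Gamma1 M,
      tgmRepT M hp hpM i * ((δ : SL(2, ℤ)) : Matrix (Fin 2) (Fin 2) ℤ)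
        = ((ε : SL(2, ℤ)) : Matrix (Fin 2) (Fin 2) ℤ) * tgmRepT M hp hpM j := by
  obtain ⟨hD, hD10, hD11⟩ := tgm_Gamma1_data δ
  set D := ((δ : SL(2, ℤ)) : Matrix (Fin 2) (Fin 2) ℤ) with hDdef
  set g := tgmGammaP M hp hpM with hg
  have hgmem : g ∈ Gamma0 M := tgmGammaP_mem M hp hpM
  have hgD : dshD M g = (p : ZMod M) := dshD_tgmGammaP M hp hpM
  have hpu : IsUnit (p : ZMod M) := tgm_isUnit_cast M hp hpM
  have hrp : Prime (p : ℤ) := Nat.prime_iff_prime_int.mp hp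
  have hp0 : p ≠ 0 := hp.ne_zero
  rcases i with _ | b
  · -- `γ_p * diag(p, 1)`
    by_cases hx : (p : ℤ) ∣ D 1 0
    · obtain ⟨E, hE, hE10, hE11⟩ := tgm_diag_mul_diag D hD hx
      have hE0 : ((E 1 0 : ℤ) : ZMod M) = 0 := by
        have h1 : (p : ZMod M) * ((E 1 0 : ℤ) : ZMod M) = 0 := by
          have := congrArg (Int.cast : ℤ → ZMod M) hE10
          push_cast at this
          rw [this, hD10]
        exact (hpu.mul_right_eq_zero).mp h1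
      have hE1 : ((E 1 1 : ℤ) : ZMod M) = 1 := by rw [hE11, hD11]
      have hEmem : E ∈ Gamma1 M := tgm_mem_Gamma1_of hE0 hE1
      refine ⟨none, ⟨g * E * g⁻¹, dsh_conj_mem_Gamma1 hgmem hEmem⟩, ?_⟩
      show (g : Matrix (Fin 2) (Fin 2) ℤ) * !![(p : ℤ), 0; 0, 1] * D
        = ((g * E * g⁻¹ : SL(2, ℤ)) : Matrix (Fin 2) (Fin 2) ℤ)
          * ((g : Matrix (Fin 2) (Fin 2) ℤ) * !![(p : ℤ), 0; 0, 1])
      rw [Matrix.mul_assoc, hE, tgm_SL_mul_assoc, tgm_SL_inv_mul_cancel, tgm_SL_mul_assoc]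
    · have hcop : IsCoprime (D 1 0) (p : ℤ) := by
        rw [isCoprime_comm, hrp.irreducible.coprime_iff_not_dvd]; exact hx
      obtain ⟨j, hj⟩ := tdm_exists_aff_sol hp0 hcop (D 1 1)
      obtain ⟨E, hE, hE10, hE11⟩ := tgm_diag_mul_aff D hD ((j : ℕ) : ℤ) hj
      have hE0 : ((E 1 0 : ℤ) : ZMod M) = 0 := by rw [hE10, hD10]
      have hEmem : E ∈ Gamma0 M := tgm_mem_Gamma0_of hE0
      have hE1 : (p : ZMod M) * dshD M E = 1 := by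
        have := congrArg (Int.cast : ℤ → ZMod M) hE11
        push_cast at this
        rw [dshD, this, hD10, hD11, mul_zero, sub_zero]
      have hmem : g * E ∈ Gamma1 M := by
        rw [dsh_mem_Gamma1_iff]
        refine ⟨(Gamma0 M).mul_mem hgmem hEmem, ?_⟩
        rw [dshD_mul hgmem, hgD, hE1]
      refine ⟨some j, ⟨g * E, hmem⟩, ?_⟩
      show (g : Matrix (Fin 2) (Fin 2) ℤ) * !![(p : ℤ), 0; 0, 1] * D
        = ((g * E : SL(2, ℤ)) : Matrix (Fin 2) (Fin 2) ℤ) * !![1, ((j : ℕ) : ℤ); 0, (p : ℤ)]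
      rw [Matrix.mul_assoc, hE, tgm_SL_mul_assoc]
  · by_cases hx : (p : ℤ) ∣ D 0 0 + ((b : ℕ) : ℤ) * D 1 0
    · obtain ⟨E, hE, hE10, hE11⟩ := tgm_aff_mul_diag D hD ((b : ℕ) : ℤ) hx
      have hE0 : ((E 1 0 : ℤ) : ZMod M) = 0 := by rw [hE10, hD10]
      have hEmem : E ∈ Gamma0 M := tgm_mem_Gamma0_of hE0
      have hE1 : dshD M E = dshD M g := by
        rw [hgD, dshD, hE11]
        push_cast
        rw [hD11, mul_one]
      refine ⟨none, ⟨E * g⁻¹, dsh_mul_inv_mem_Gamma1 hEmem hgmem hE1⟩, ?_⟩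
      show !![1, ((b : ℕ) : ℤ); 0, (p : ℤ)] * D
        = ((E * g⁻¹ : SL(2, ℤ)) : Matrix (Fin 2) (Fin 2) ℤ)
          * ((g : Matrix (Fin 2) (Fin 2) ℤ) * !![(p : ℤ), 0; 0, 1])
      rw [hE, tgm_SL_mul_assoc, tgm_SL_inv_mul_cancel]
    · have hcop : IsCoprime (D 0 0 + ((b : ℕ) : ℤ) * D 1 0) (p : ℤ) := by
        rw [isCoprime_comm, hrp.irreducible.coprime_iff_not_dvd]; exact hx
      obtain ⟨j, hj⟩ := tdm_exists_aff_sol hp0 hcop (D 0 1 + ((b : ℕ) : ℤ) * D 1 1)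
      obtain ⟨E, hE, hE10, hE11⟩ := tgm_aff_mul_aff D hD ((b : ℕ) : ℤ) ((j : ℕ) : ℤ) hj
      have hE0 : ((E 1 0 : ℤ) : ZMod M) = 0 := by
        rw [hE10]; push_cast; rw [hD10, mul_zero]
      have hE1 : ((E 1 1 : ℤ) : ZMod M) = 1 := by
        rw [hE11]; push_cast; rw [hD10, hD11, mul_zero, sub_zero]
      exact ⟨some j, ⟨E, tgm_mem_Gamma1_of hE0 hE1⟩, hE⟩

theorem tgmRepT_inequiv (i j : Option (Fin p)) (γ : Gamma1 M)
    (h : ((γ : SL(2, ℤ)) : Matrix (Fin 2) (Fin 2) ℤ) * tgmRepT M hp hpM i = tgmRepT M hp hpM j) :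
    i = j := by
  rcases i with _ | b <;> rcases j with _ | b'
  · rfl
  · exfalso
    have h' : (((γ : SL(2, ℤ)) * tgmGammaP M hp hpM : SL(2, ℤ)) : Matrix (Fin 2) (Fin 2) ℤ)
        * !![(p : ℤ), 0; 0, 1] = !![1, ((b' : ℕ) : ℤ); 0, (p : ℤ)] := by
      rw [tgm_SL_mul_assoc]; exact h
    exact tdm_diag_aff_inequiv hp.two_le _ _ h'
  · exfalso
    have h' : ((((tgmGammaP M hp hpM)⁻¹ * (γ : SL(2, ℤ)) : SL(2, ℤ)) :
        Matrix (Fin 2) (Fin 2) ℤ)) * !![1, ((b : ℕ) : ℤ); 0, (p : ℤ)] = !![(p : ℤ), 0; 0, 1] := by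
      rw [tgm_SL_mul_assoc]
      have h2 : ((γ : SL(2, ℤ)) : Matrix (Fin 2) (Fin 2) ℤ) * !![1, ((b : ℕ) : ℤ); 0, (p : ℤ)]
          = (tgmGammaP M hp hpM : Matrix (Fin 2) (Fin 2) ℤ) * !![(p : ℤ), 0; 0, 1] := h
      rw [h2, tgm_SL_inv_mul_cancel]
    exact tdm_aff_diag_inequiv hp.two_le _ _ h'
  · exact congrArg some (tdm_aff_inequiv b b' _ h)

/-- the coset system of `T_p` (`p` prime, `p ∤ M`) on `Γ₁(M)` -/
noncomputable def tgmSysT : tdmCosetSys (Gamma1 M) (Option (Fin p)) :=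
  tdmCosetSys.ofInequiv (tgmRepT M hp hpM)
    (fun i => by rw [tgmRepT_det]; exact_mod_cast hp.pos)
    (tgmRepT_inequiv M hp hpM) (tgmRepT_exists M hp hpM)

@[simp] theorem tgmSysT_rep : (tgmSysT M hp hpM).rep = tgmRepT M hp hpM := rfl

end SysT

/-! ### The coset system of `U_r` -/

section SysU

variable (M : ℕ) {r : ℕ} (hrM : r ∣ M) (hr0 : r ≠ 0)

include hrM in
theorem tgmRepU_exists (δ : Gamma1 M) (b : Fin r) : ∃ j : Fin r, ∃ ε : Gamma1 M,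
    tdmRepU r b * ((δ : SL(2, ℤ)) : Matrix (Fin 2) (Fin 2) ℤ)
      = ((ε : SL(2, ℤ)) : Matrix (Fin 2) (Fin 2) ℤ) * tdmRepU r j := by
  obtain ⟨hD, hD10, hD11⟩ := tgm_Gamma1_data δ
  set D := ((δ : SL(2, ℤ)) : Matrix (Fin 2) (Fin 2) ℤ) with hDdef
  have hN : (M : ℤ) ∣ D 1 0 := (ZMod.intCast_zmod_eq_zero_iff_dvd _ _).mp hD10
  obtain ⟨m, hm⟩ : (r : ℤ) ∣ D 1 0 := (Int.natCast_dvd_natCast.mpr hrM).trans hN
  have hcop : IsCoprime (D 0 0 + ((b : ℕ) : ℤ) * D 1 0) (r : ℤ) := by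
    refine ⟨D 1 1, -(D 0 1 * m) - (b : ℕ) * m * D 1 1, ?_⟩
    rw [Matrix.det_fin_two] at hD
    rw [hm] at hD ⊢
    linear_combination hD
  by_cases hr0 : r = 0
  · subst hr0; exact b.elim0
  obtain ⟨j, hj⟩ := tdm_exists_aff_sol hr0 hcop (D 0 1 + ((b : ℕ) : ℤ) * D 1 1)
  obtain ⟨E, hE, hE10, hE11⟩ := tgm_aff_mul_aff D hD ((b : ℕ) : ℤ) ((j : ℕ) : ℤ) hj
  have hE0 : ((E 1 0 : ℤ) : ZMod M) = 0 := by
    rw [hE10]; push_cast; rw [hD10, mul_zero]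
  have hE1 : ((E 1 1 : ℤ) : ZMod M) = 1 := by
    rw [hE11]; push_cast; rw [hD10, hD11, mul_zero, sub_zero]
  exact ⟨j, ⟨E, tgm_mem_Gamma1_of hE0 hE1⟩, hE⟩

/-- the coset system of `U_r` (`r ∣ M`) on `Γ₁(M)` -/
def tgmSysU : tdmCosetSys (Gamma1 M) (Fin r) :=
  tdmCosetSys.ofInequiv (tdmRepU r)
    (fun i => by rw [tdmRepU_det]; exact_mod_cast Nat.pos_of_ne_zero hr0)
    (fun i j γ h => tdm_aff_inequiv i j _ h) (tgmRepU_exists M hrM)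

@[simp] theorem tgmSysU_rep : (tgmSysU M hrM hr0).rep = tdmRepU r := rfl

end SysU

/-! ### The coset system of the diamond operator `⟨d⟩` -/

section SysD

variable (M : ℕ) [NeZero M] (d : (ZMod M)ˣ)

/-- the coset system of `⟨d⟩` on `Γ₁(M)`: the single representative `γ_d` -/
noncomputable def tgmSysD : tdmCosetSys (Gamma1 M) Unit :=
  tdmCosetSys.ofInequiv (fun _ => (dshGammaU M d : Matrix (Fin 2) (Fin 2) ℤ))
    (fun _ => by rw [(dshGammaU M d).2]; exact one_pos)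
    (fun _ _ _ _ => rfl)
    (fun δ _ => ⟨(), ⟨dshGammaU M d * (δ : SL(2, ℤ)) * (dshGammaU M d)⁻¹,
      dsh_conj_mem_Gamma1 (dshGammaU_mem M d) δ.2⟩, by
        rw [tgm_SL_mul_assoc, tgm_SL_inv_mul_self, Matrix.mul_one,
          Matrix.SpecialLinearGroup.coe_mul]⟩)

@[simp] theorem tgmSysD_rep (i : Unit) :
    (tgmSysD M d).rep i = (dshGammaU M d : Matrix (Fin 2) (Fin 2) ℤ) := rfl

theorem tgmSysD_eps (δ : Gamma1 M) (i : Unit) :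
    (((tgmSysD M d).eps δ i : Gamma1 M) : SL(2, ℤ))
      = dshGammaU M d * (δ : SL(2, ℤ)) * (dshGammaU M d)⁻¹ := by
  have h : (tgmSysD M d).rep i * ((δ : SL(2, ℤ)) : Matrix (Fin 2) (Fin 2) ℤ)
      = (((⟨dshGammaU M d * (δ : SL(2, ℤ)) * (dshGammaU M d)⁻¹,
          dsh_conj_mem_Gamma1 (dshGammaU_mem M d) δ.2⟩ : Gamma1 M) : SL(2, ℤ)) :
          Matrix (Fin 2) (Fin 2) ℤ) * (tgmSysD M d).rep () := by
    show (dshGammaU M d : Matrix (Fin 2) (Fin 2) ℤ) * _ = _ * (dshGammaU M d : Matrix (Fin 2) (Fin 2) ℤ)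
    rw [tgm_SL_mul_assoc, tgm_SL_inv_mul_self, Matrix.mul_one, Matrix.SpecialLinearGroup.coe_mul]
  have := ((tgmSysD M d).eq_of_rep_mul h).2
  rw [← this]

end SysD

/-! ### Compatibility with the involution `J` -/

/-- the upper unipotent matrix `[[1, q], [0, 1]]` as an element of `Γ₁(M)` -/
def tgmUnip (M : ℕ) (q : ℤ) : Gamma1 M :=
  ⟨tdmUnipSL q, by rw [Gamma1_mem]; simp [tdmUnipSL]⟩

theorem tgm_jConj_mul_inv_mem {M : ℕ} {g : SL(2, ℤ)} (hg : g ∈ Gamma0 M) :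
    jConjSL g * g⁻¹ ∈ Gamma1 M := by
  refine dsh_mul_inv_mem_Gamma1 (jConjSL_mem_Gamma0 hg) hg ?_
  rw [dshD, dshD, jConjSL_coe, jConjMat_apply_one_one]

theorem tgm_jConj_mul_diag (g : SL(2, ℤ)) (r : ℕ) :
    jConjMat ((g : Matrix (Fin 2) (Fin 2) ℤ) * !![(r : ℤ), 0; 0, 1])
      = ((jConjSL g * g⁻¹ : SL(2, ℤ)) : Matrix (Fin 2) (Fin 2) ℤ)
        * ((g : Matrix (Fin 2) (Fin 2) ℤ) * !![(r : ℤ), 0; 0, 1]) := by
  rw [jConjMat_mul, tdm_jConj_diag, tgm_SL_mul_assoc, tgm_SL_inv_mul_cancel, jConjSL_coe]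

/-- `T_p` commutes with the involution `φ ↦ φ ∘ J` -/
theorem tgmSysT_tgeInv (M : ℕ) [NeZero M] {p : ℕ} (hp : p.Prime) (hpM : ¬ p ∣ M)
    (R : Type*) [Semiring R] (A : Type*) [AddCommGroup A] [Module R A]
    (φ : Additive (Gamma1 M) →+ A) :
    tgeInv (Gamma1 M) R A ((tgmSysT M hp hpM).hom A φ)
      = (tgmSysT M hp hpM).hom A (tgeInv (Gamma1 M) R A φ) := by
  refine AddMonoidHom.ext fun δ => ?_
  exact (tgmSysT M hp hpM).hom_twist (tgmSysT M hp hpM) (tgeJ (Gamma1 M)) jConjMat jConjMat_mul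
    (tge_jConjMat_coe (Gamma1 M)) (Equiv.optionCongr (tdmNeg p hp.ne_zero))
    (fun i => i.elim ⟨jConjSL (tgmGammaP M hp hpM) * (tgmGammaP M hp hpM)⁻¹,
        tgm_jConj_mul_inv_mem (tgmGammaP_mem M hp hpM)⟩
      fun b => tgmUnip M ((-((b : ℕ) : ℤ)) / p))
    (fun i => by
      rcases i with _ | b
      · exact tgm_jConj_mul_diag (tgmGammaP M hp hpM) p
      · exact tdm_jConj_aff M p hp.ne_zero b) φ (Additive.toMul δ)

/-- `U_r` commutes with the involution `φ ↦ φ ∘ J` -/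
theorem tgmSysU_tgeInv (M : ℕ) {r : ℕ} (hrM : r ∣ M) (hr0 : r ≠ 0)
    (R : Type*) [Semiring R] (A : Type*) [AddCommGroup A] [Module R A]
    (φ : Additive (Gamma1 M) →+ A) :
    tgeInv (Gamma1 M) R A ((tgmSysU M hrM hr0).hom A φ)
      = (tgmSysU M hrM hr0).hom A (tgeInv (Gamma1 M) R A φ) := by
  refine AddMonoidHom.ext fun δ => ?_
  exact (tgmSysU M hrM hr0).hom_twist (tgmSysU M hrM hr0) (tgeJ (Gamma1 M)) jConjMat jConjMat_mul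
    (tge_jConjMat_coe (Gamma1 M)) (tdmNeg r hr0)
    (fun b => tgmUnip M ((-((b : ℕ) : ℤ)) / r))
    (fun b => tdm_jConj_aff M r hr0 b) φ (Additive.toMul δ)

/-- `⟨d⟩` commutes with the involution `φ ↦ φ ∘ J` -/
theorem tgmSysD_tgeInv (M : ℕ) [NeZero M] (d : (ZMod M)ˣ)
    (R : Type*) [Semiring R] (A : Type*) [AddCommGroup A] [Module R A]
    (φ : Additive (Gamma1 M) →+ A) :
    tgeInv (Gamma1 M) R A ((tgmSysD M d).hom A φ)
      = (tgmSysD M d).hom A (tgeInv (Gamma1 M) R A φ) := by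
  refine AddMonoidHom.ext fun δ => ?_
  exact (tgmSysD M d).hom_twist (tgmSysD M d) (tgeJ (Gamma1 M)) jConjMat jConjMat_mul
    (tge_jConjMat_coe (Gamma1 M)) (Equiv.refl Unit)
    (fun _ => ⟨jConjSL (dshGammaU M d) * (dshGammaU M d)⁻¹,
        tgm_jConj_mul_inv_mem (dshGammaU_mem M d)⟩)
    (fun _ => by
      show jConjMat (dshGammaU M d : Matrix (Fin 2) (Fin 2) ℤ)
        = ((jConjSL (dshGammaU M d) * (dshGammaU M d)⁻¹ : SL(2, ℤ)) : Matrix (Fin 2) (Fin 2) ℤ)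
          * (dshGammaU M d : Matrix (Fin 2) (Fin 2) ℤ)
      rw [Matrix.SpecialLinearGroup.coe_mul, Matrix.mul_assoc, tgm_SL_inv_mul_self,
        Matrix.mul_one, jConjSL_coe]) φ (Additive.toMul δ)

end Fermat.Agent.T1G
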