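/-
TG-ES (E5), analytic part: the period map of `Γ₁(M)` intertwines `T_p`, `U_r`, `⟨d⟩` on
`S₂(Γ₁(M))` with the abstract Hecke operators of the coset systems `tgmSysT`, `tgmSysU`, `tgmSysD`.
-/
import Mathlib
import Fermat.Agent.Lib.T1G.ES.Coset

set_option autoImplicit false

namespace Fermat.Agent.T1G

open UpperHalfPlane hiding I
open Complex Derivative Filter Function CongruenceSubgroup Matrix
open scoped Manifold Topology Real ModularForm MatrixGroups
open Fermat.Agent.S22Lib Fermat.Agent.ES Fermat.Agent.T1 Fermat.Agent.DS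
open ModularCurve ModularCurve.Period

noncomputable section

/-- the action of (the integral matrix of) an element of `SL(2, ℤ)` -/
theorem tge_tdmAct_SL (g : SL(2, ℤ)) (hg : 0 < (g : Matrix (Fin 2) (Fin 2) ℤ).det) (τ : ℍ) :
    tdmAct (g : Matrix (Fin 2) (Fin 2) ℤ) hg τ = g • τ := by
  rw [tdmAct, intGL_coe_SL]
  rfl

variable {M : ℕ} [NeZero M]

/-- **(E5)** the period map intertwines `⟨d⟩` with the abstract Hecke operator of `tgmSysD` -/
theorem tge_period_dshDiamond (d : (ZMod M)ˣ) (f : CuspForm (Gamma1 M) 2) :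
    tgePeriodHom (Gamma1 M) (dshDiamond 2 M d f)
      = (tgmSysD M d).hom ℂ (tgePeriodHom (Gamma1 M) f) := by
  obtain ⟨c, hc⟩ := exists_const_prim_smul_eq (tge_isCuspidalAll (Gamma1 M) f) (dshGammaU M d)
  refine tge_period_of_prim (Gamma1 M) (tgmSysD M d) f _ (-c) fun τ => ?_
  rw [Fintype.sum_unique, coe_dshDiamond]
  have h1 : tdmAct ((tgmSysD M d).rep default) ((tgmSysD M d).det_pos default) τ
      = dshGammaU M d • τ := tge_tdmAct_SL _ _ τ
  rw [h1, hc τ]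
  ring

/-- **(E5)** the period map intertwines `U_r` with the abstract Hecke operator of `tgmSysU` -/
theorem tge_period_dshULin {r : ℕ} (hrM : r ∣ M) (hr0 : r ≠ 0) (f : CuspForm (Gamma1 M) 2) :
    tgePeriodHom (Gamma1 M) (dshULin 2 hrM f)
      = (tgmSysU M hrM hr0).hom ℂ (tgePeriodHom (Gamma1 M) f) := by
  have hf := tge_isCuspidalAll (Gamma1 M) f
  obtain ⟨C, hC⟩ := tge_exists_const_of_hasDerivAt
    (tge_isCuspidalAll (Gamma1 M) (dshULin 2 hrM f))
    (F := fun w : ℍ => ∑ b : Fin r,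
        prim ⇑f (tdmAct !![1, ((b : ℕ) : ℤ); 0, (r : ℤ)] (tdm_aff_det_pos hr0 _) w))
    (fun τ => by rw [coe_dshULin]; exact tge_hasDerivAt_sum_aff hr0 hf τ)
  refine tge_period_of_prim (Gamma1 M) (tgmSysU M hrM hr0) f _ C fun τ => ?_
  rw [hC τ]
  rfl

/-- **(E5)** the period map intertwines `T_p` with the abstract Hecke operator of `tgmSysT` -/
theorem tge_period_dshTLin {p : ℕ} (hp : p.Prime) (hpM : ¬ p ∣ M) (f : CuspForm (Gamma1 M) 2) :
    tgePeriodHom (Gamma1 M) (dshTLin 2 hp hpM f)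
      = (tgmSysT M hp hpM).hom ℂ (tgePeriodHom (Gamma1 M) f) := by
  have hf := tge_isCuspidalAll (Gamma1 M) f
  have hp0 := hp.ne_zero
  set f' := dshDiamond 2 M (dshUnit M hp hpM) f with hf'
  have hf'c := tge_isCuspidalAll (Gamma1 M) f'
  obtain ⟨C, hC⟩ := tge_exists_const_of_hasDerivAt
    (tge_isCuspidalAll (Gamma1 M) (dshTLin 2 hp hpM f))
    (F := fun w : ℍ => (∑ b : Fin p,
        prim ⇑f (tdmAct !![1, ((b : ℕ) : ℤ); 0, (p : ℤ)] (tdm_aff_det_pos hp0 _) w))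
        + prim ⇑f' (tdmAct !![(p : ℤ), 0; 0, 1] (tdm_diag_det_pos hp0) w))
    (fun τ => by
      rw [coe_dshTLin_eq_add]
      exact (tge_hasDerivAt_sum_aff hp0 hf τ).add (tge_hasDerivAt_diag hp0 hf'c τ))
  obtain ⟨c, hc⟩ := exists_const_prim_smul_eq hf (tgmGammaP M hp hpM)
  refine tge_period_of_prim (Gamma1 M) (tgmSysT M hp hpM) f _ (C - c) fun τ => ?_
  rw [hC τ, Fintype.sum_option]
  have h1 : tdmAct ((tgmSysT M hp hpM).rep none) ((tgmSysT M hp hpM).det_pos none) τ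
      = tgmGammaP M hp hpM • tdmAct !![(p : ℤ), 0; 0, 1] (tdm_diag_det_pos hp0) τ :=
    tdmAct_SL_mul _ _ _ τ
  have h2 : prim ⇑f' (tdmAct !![(p : ℤ), 0; 0, 1] (tdm_diag_det_pos hp0) τ)
      = prim ⇑f (tgmGammaP M hp hpM • tdmAct !![(p : ℤ), 0; 0, 1] (tdm_diag_det_pos hp0) τ)
        - c := by
    rw [hc, hf', coe_dshDiamond]
    show _ = prim (⇑f ∣[(2 : ℤ)] dshGammaU M (dshUnit M hp hpM)) _ + c - c
    ring
  rw [h1, h2]
  have h3 : ∀ b : Fin p, tdmAct ((tgmSysT M hp hpM).rep (some b))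
      ((tgmSysT M hp hpM).det_pos (some b)) τ
      = tdmAct !![1, ((b : ℕ) : ℤ); 0, (p : ℤ)] (tdm_aff_det_pos hp0 _) τ := fun b => rfl
  simp only [h3]
  ring

end

end Fermat.Agent.T1G
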